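import Mathlib

/-! # CFT / Recip, RC-ARITH : a rational number all of whose prime-power factors are `(p-1)`-st roots
of unity modulo `p ^ 2` is itself one. -/

set_option autoImplicit false

namespace Fermat.Agent.CFT.Recip

theorem natCast_pow_eq_one_of_factors (M k : ℕ) {n : ℕ} (hn : n ≠ 0)
    (h : ∀ l : ℕ, l.Prime → l ∣ n → ((l : ZMod M)) ^ (k * padicValNat l n) = 1) :
    ((n : ZMod M)) ^ k = 1 := by
  conv_lhs => rw [← Nat.prod_factorization_pow_eq_self hn]
  rw [Finsupp.prod, Nat.cast_prod, ← Finset.prod_pow]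
  refine Finset.prod_eq_one fun l hl => ?_
  have hlp : l.Prime := Nat.prime_of_mem_primeFactors (by simpa using hl)
  have hld : l ∣ n := Nat.dvd_of_mem_primeFactors (by simpa using hl)
  rw [Nat.cast_pow, ← pow_mul, Nat.factorization_def n hlp, mul_comm]
  exact h l hlp hld

/-- **RC-ARITH** -/
theorem arith {p : ℕ} [Fact p.Prime] (hp2 : p ≠ 2) {r : ℚ} (hr : r ≠ 0)
    (hpr : padicValRat p r = 0)
    (h : ∀ l : ℕ, l.Prime → l ≠ p →
      ((l : ZMod (p ^ 2))) ^ ((p - 1) * (padicValRat l r).natAbs) = 1) :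
    ((p : ℤ) ^ 2) ∣ r.num ^ (p - 1) - (r.den : ℤ) ^ (p - 1) := by
  have hp : p.Prime := Fact.out
  have hnum0 : r.num.natAbs ≠ 0 := by
    rw [Int.natAbs_ne_zero]; exact Rat.num_ne_zero.2 hr
  have hden0 : r.den ≠ 0 := r.den_ne_zero
  have hcop : Nat.Coprime r.num.natAbs r.den := r.reduced
  have hdef : ∀ l : ℕ, padicValRat l r = (padicValNat l r.num.natAbs : ℤ) - padicValNat l r.den :=
    fun l => rfl
  -- `p` divides neither the numerator nor the denominator
  have hpn : ¬ (p ∣ r.num.natAbs ∧ True) ∧ ¬ p ∣ r.den := by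
    have h0 := hdef p
    rw [hpr] at h0
    constructor
    · rintro ⟨hd, -⟩
      have h1 : ¬ p ∣ r.den := fun hd' => Nat.Prime.not_coprime_iff_dvd.2 ⟨p, hp, hd, hd'⟩ hcop
      rw [padicValNat.eq_zero_of_not_dvd h1] at h0
      have h2 : 1 ≤ padicValNat p r.num.natAbs := one_le_padicValNat_of_dvd hnum0 hd
      omega
    · intro hd
      have h1 : ¬ p ∣ r.num.natAbs :=
        fun hd' => Nat.Prime.not_coprime_iff_dvd.2 ⟨p, hp, hd', hd⟩ hcop
      rw [padicValNat.eq_zero_of_not_dvd h1] at h0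
      have h2 : 1 ≤ padicValNat p r.den := one_le_padicValNat_of_dvd hden0 hd
      omega
  have e1 : ((r.num.natAbs : ZMod (p ^ 2))) ^ (p - 1) = 1 := by
    refine natCast_pow_eq_one_of_factors _ _ hnum0 fun l hl hld => ?_
    have hlp : l ≠ p := by
      rintro rfl
      exact hpn.1 ⟨hld, trivial⟩
    have h1 : ¬ l ∣ r.den := fun hd' => Nat.Prime.not_coprime_iff_dvd.2 ⟨l, hl, hld, hd'⟩ hcop
    have h2 := h l hl hlp
    rw [hdef l, padicValNat.eq_zero_of_not_dvd h1] at h2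
    simpa using h2
  have e2 : ((r.den : ZMod (p ^ 2))) ^ (p - 1) = 1 := by
    refine natCast_pow_eq_one_of_factors _ _ hden0 fun l hl hld => ?_
    have hlp : l ≠ p := by
      rintro rfl
      exact hpn.2 hld
    have h1 : ¬ l ∣ r.num.natAbs :=
      fun hd' => Nat.Prime.not_coprime_iff_dvd.2 ⟨l, hl, hd', hld⟩ hcop
    have h2 := h l hl hlp
    rw [hdef l, padicValNat.eq_zero_of_not_dvd h1] at h2
    simpa using h2
  have heven : Even (p - 1) := by
    have := hp.eq_two_or_odd'.resolve_left hp2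
    obtain ⟨k, hk⟩ := this
    exact ⟨k, by omega⟩
  have e3 : r.num ^ (p - 1) = ((r.num.natAbs : ℕ) : ℤ) ^ (p - 1) := by
    rw [Int.natCast_natAbs, heven.pow_abs]
  have : (((p ^ 2 : ℕ) : ℤ)) ∣ r.num ^ (p - 1) - (r.den : ℤ) ^ (p - 1) := by
    rw [← ZMod.intCast_zmod_eq_zero_iff_dvd, e3, Int.cast_sub, Int.cast_pow, Int.cast_pow,
      Int.cast_natCast, Int.cast_natCast, e1, e2, sub_self]
  simpa using this

end Fermat.Agent.CFT.Recip
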