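import Fermat.Agent.CFT.Recip.Spec
import Fermat.Agent.CFT.K.Bridge
import Fermat.Agent.GAL.PC.CycloPow

/-!
# CFT / Recip : the character `χ` of the first layer of the cyclotomic `ℤ_p`-extension
-/

set_option autoImplicit false

namespace Fermat.Agent.CFT.Recip

open Fermat.Agent.CFT ExtCitation

section Group

variable {G : Type} [Group G] {p : ℕ} [Fact p.Prime]

/-- a normal subgroup of prime index is the kernel of a character -/
theorem exists_char_of_index_prime (N : Subgroup G) [N.Normal] (h : N.index = p) :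
    ∃ χ : G →* Multiplicative (ZMod p), χ.ker = N ∧ ∃ σ, χ σ = Multiplicative.ofAdd 1 := by
  have hcard : Nat.card (G ⧸ N) = p := h
  have hcyc : IsCyclic (G ⧸ N) := isCyclic_of_prime_card hcard
  let e : Multiplicative (ZMod p) ≃* G ⧸ N := hcard ▸ zmodCyclicMulEquiv hcyc
  refine ⟨e.symm.toMonoidHom.comp (QuotientGroup.mk' N), ?_, ?_⟩
  · ext g
    rw [MonoidHom.mem_ker, MonoidHom.comp_apply]
    change e.symm _ = 1 ↔ _
    rw [map_eq_one_iff _ e.symm.injective, QuotientGroup.mk'_apply, QuotientGroup.eq_one_iff]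
  · obtain ⟨σ, hσ⟩ := QuotientGroup.mk'_surjective N (e (Multiplicative.ofAdd 1))
    refine ⟨σ, ?_⟩
    rw [MonoidHom.comp_apply, hσ]
    exact e.symm_apply_apply _

/-- a subgroup `V ≤ M`, normal of finite index in `G`, with `g ^ m ∈ V` for `g ∈ M`, `p ∤ m`, has
index prime to `p` in `M` -/
theorem coprime_index_of_pow_mem {V M : Subgroup G} [V.Normal] [V.FiniteIndex] {m : ℕ}
    (hm : ¬ p ∣ m) (h : ∀ g ∈ M, g ^ m ∈ V) : Nat.Coprime (V.subgroupOf M).index p := by
  have hp : p.Prime := Fact.out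
  rw [Nat.coprime_comm, hp.coprime_iff_not_dvd]
  intro hdvd
  have hfin : Finite (↥M ⧸ V.subgroupOf M) := Subgroup.finite_quotient_of_finiteIndex
  have hdvd' : p ∣ Nat.card (↥M ⧸ V.subgroupOf M) := hdvd
  obtain ⟨x, hx⟩ := exists_prime_orderOf_dvd_card' p hdvd'
  obtain ⟨g, rfl⟩ := QuotientGroup.mk_surjective x
  have h1 : (QuotientGroup.mk g : ↥M ⧸ V.subgroupOf M) ^ m = 1 := by
    rw [← QuotientGroup.mk_pow, QuotientGroup.eq_one_iff]
    exact h g g.2
  have h2 := orderOf_dvd_of_pow_eq_one h1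
  rw [hx] at h2
  exact hm h2

end Group

variable {p : ℕ} [Fact p.Prime]

theorem inertLe : InertLe p := by
  intro l hl hlp A hA g hg
  have hp : p.Prime := Fact.out
  exact GAL.PC.cycloChar_of_mem_inertia' (p ^ 2) hl
    (Nat.Coprime.pow_right 2 ((Nat.coprime_primes hl hp).2 hlp)) hA hg

/-- `ℚ(ζ_{p²})` is unramified outside `S ∋ p` -/
theorem exists_levS_le_VV (S : Finset Nat.Primes) (hpS : pPrime p ∈ S) :
    ∃ U ∈ (levS S).carrier, U ≤ VV p := by
  obtain ⟨ζ, hζ⟩ := GAL.exists_primitiveRoot_Zbar (p ^ 2)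
  have hF : (IntermediateField.adjoin ℚ {(ζ : Qb)}).IsUnramifiedOutside S := by
    refine ⟨IntermediateField.adjoin.finiteDimensional
      (Algebra.IsIntegral.isIntegral (R := ℚ) (ζ : Qb)), fun q hq A hA g hg => ?_⟩
    have hqp : (q : ℕ) ≠ p := by
      intro h
      apply hq
      have : q = pPrime p := Subtype.ext h
      rw [this]; exact hpS
    have h1 : c2 p g = 1 := inertLe q q.2 hqp A hA hg
    have h2 := GAL.cycloChar_spec (p ^ 2) g hζ.pow_eq_one
    have : Fact (1 < p ^ 2) := ⟨Nat.one_lt_pow two_ne_zero (Fact.out : p.Prime).one_lt⟩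
    rw [h1, Units.val_one, ZMod.val_one, pow_one] at h2
    rw [IntermediateField.mem_fixingSubgroup_iff]
    have hle : IntermediateField.adjoin ℚ {(ζ : Qb)} ≤
        IntermediateField.fixedField (Subgroup.zpowers g) := by
      rw [IntermediateField.adjoin_simple_le_iff, IntermediateField.mem_fixedField_iff]
      intro τ hτ
      obtain ⟨n, rfl⟩ := Subgroup.mem_zpowers_iff.1 hτ
      have hstab : g ∈ MulAction.stabilizer GQ (ζ : Qb) := h2
      exact (MulAction.stabilizer GQ (ζ : Qb)).zpow_mem hstab n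
    intro x hx
    have := hle hx
    rw [IntermediateField.mem_fixedField_iff] at this
    exact this g (Subgroup.mem_zpowers g)
  obtain ⟨U, hU, hle⟩ := exists_levS_le hF
  refine ⟨U, hU, fun s hs => ?_⟩
  have hs' := hle hs
  rw [IntermediateField.mem_fixingSubgroup_iff] at hs'
  have h1 : s (ζ : Qb) = (ζ : Qb) ^ 1 := by
    rw [pow_one]
    exact hs' _ (IntermediateField.mem_adjoin_simple_self ℚ _)
  have h2 := GAL.cycloChar_eq_of_primitiveRoot (p ^ 2) s hζ h1
  rw [mem_VV]
  exact Units.ext (by simpa using h2)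

instance : (VV p).FiniteIndex := by
  obtain ⟨U, hU, hle⟩ := exists_levS_le_VV {pPrime p} (Finset.mem_singleton_self _)
  have := (levS {pPrime p}).finiteIndex U hU
  exact Subgroup.finiteIndex_of_le hle

theorem coprime_index_VV : Nat.Coprime ((VV p).subgroupOf (MM p)).index p := by
  have hp : p.Prime := Fact.out
  refine coprime_index_of_pow_mem (m := p - 1) ?_ fun g hg => ?_
  · intro h
    have := Nat.le_of_dvd (Nat.sub_pos_of_lt hp.one_lt) h
    have := hp.one_lt
    omega
  · rw [mem_VV, map_pow]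
    exact hg

theorem index_MM (hp2 : p ≠ 2) (hs : Function.Surjective (c2 p)) : (MM p).index = p := by
  have hp : p.Prime := Fact.out
  have hcyc := ZMod.isCyclic_units_of_prime_pow p hp hp2 2
  have h1 : MM p = (powMonoidHom (p - 1) : (ZMod (p ^ 2))ˣ →* (ZMod (p ^ 2))ˣ).ker.comap (c2 p) :=
    (MonoidHom.comap_ker _ _).symm
  rw [h1, Subgroup.index_comap_of_surjective _ hs, IsCyclic.index_powMonoidHom_ker,
    Nat.card_eq_fintype_card, ZMod.card_units_eq_totient, Nat.totient_prime_pow hp two_pos]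
  have h2 : (p ^ (2 - 1) * (p - 1)).gcd (p - 1) = p - 1 :=
    Nat.gcd_eq_right (Dvd.intro_left _ rfl)
  rw [h2, Nat.mul_div_cancel _ (Nat.sub_pos_of_lt hp.one_lt)]
  simp

/-- the character of `𝔹₁/ℚ` -/
theorem exists_chi (hp2 : p ≠ 2) (hs : Function.Surjective (c2 p)) :
    ∃ χ : GQ →* Multiplicative (ZMod p), χ.ker = MM p ∧ ∃ σ, χ σ = Multiplicative.ofAdd 1 :=
  exists_char_of_index_prime (MM p) (index_MM hp2 hs)

end Fermat.Agent.CFT.Recip
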