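import Fermat.Agent.CFT.F.Basic
import Fermat.Agent.CFT.F.Lev
import Fermat.Agent.CFT.Coh.InfRes2

/-!
# CFT / Recip : conjugation invariance of local triviality (arbitrary coefficients)

`x` a 2-cocycle on `G`, `j : H →* G`, `j' = g j g⁻¹`.  If `x ∘ (j × j)` is a coboundary then so is
`x ∘ (j' × j')`:  `x(a',b') = ρ(g) x(a,b) - d t (a,b)`, `t(a) = x(g,a) - x(a',g)`.
-/

set_option autoImplicit false

namespace Fermat.Agent.CFT.Recip

open Fermat.Agent.CFT

variable {k : Type} [CommRing k] {G : Type} [Group G] {V : Type} [AddCommGroup V] [Module k V]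
  {𝒰 : Levels G} {ρ : Representation k G V}

theorem conj_identity {x : G × G → V} (hx : d23 ρ x = 0) (g a b a' b' : G)
    (ha : g * a = a' * g) (hb : g * b = b' * g) :
    x (a', b') = ρ g (x (a, b)) - (ρ a' (x (g, b) - x (b', g)) - (x (g, a * b) - x (a' * b', g))
      + (x (g, a) - x (a', g))) := by
  have h1 := coc2 hx g a b
  have h2 := coc2 hx a' g b
  have h3 := coc2 hx a' b' g
  rw [ha] at h1
  rw [hb] at h2
  rw [map_sub]
  linear_combination (norm := abel) - h3 + h2 - h1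

theorem conj_res_mem_B2 {x : G × G → V} (hx : x ∈ Z2 𝒰 ρ) (g : G) {H : Type} [Group H]
    (j j' : H →* G) (hj : ∀ h, j' h = g * j h * g⁻¹)
    (hB : x ∘ Prod.map j j ∈ B2 (𝒰.comap j) (ρ.comp j)) :
    x ∘ Prod.map j' j' ∈ B2 (𝒰.comap j') (ρ.comp j') := by
  obtain ⟨hxk, U₂, hU₂, hxU⟩ := hx
  obtain ⟨φ, ⟨_, ⟨U₁, hU₁, rfl⟩, hφU⟩, hφ⟩ := hB
  obtain ⟨U, hU, hle₁, hle₂⟩ := 𝒰.directed U₁ hU₁ U₂ hU₂
  have hn := 𝒰.normal U hU
  have hcomm : ∀ h, g * j h = j' h * g := fun h => by rw [hj]; group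
  refine ⟨fun a => ρ g (φ a) - (x (g, j a) - x (j' a, g)), ⟨U.comap j', ⟨U, hU, rfl⟩, ?_⟩, ?_⟩
  · intro a s hs
    have hs' : j' s ∈ U := hs
    have hs'' : j s ∈ U := by
      have h1 := hn.conj_mem _ hs' g⁻¹
      rw [hj] at h1
      simpa [mul_assoc] using h1
    have e1 : φ (a * s) = φ a := hφU a s (hle₁ hs'')
    have e2 : x (g, j (a * s)) = x (g, j a) := by
      have := hxU g (j a) 1 (j s) (one_mem _) (hle₂ hs'')
      rwa [mul_one, ← map_mul] at this
    have e3 : x (j' (a * s), g) = x (j' a, g) := by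
      have := hxU (j' a) g (j' s) 1 (hle₂ hs') (one_mem _)
      rwa [mul_one, ← map_mul] at this
    simp only [e1, e2, e3]
  · funext ⟨a, b⟩
    have key := conj_identity (LinearMap.mem_ker.1 hxk) g (j a) (j b) (j' a) (j' b) (hcomm a)
      (hcomm b)
    have hφab := congrFun hφ (a, b)
    simp only [d12_apply, Function.comp_apply, Prod.map_apply, MonoidHom.comp_apply] at hφab ⊢
    rw [key, ← hφab]
    have e : ρ g (ρ (j a) (φ b)) = ρ (j' a) (ρ g (φ b)) := by
      rw [← Module.End.mul_apply, ← map_mul, hcomm, map_mul, Module.End.mul_apply]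
    simp only [map_sub, map_add, map_mul, e]
    abel

end Fermat.Agent.CFT.Recip
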