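import Fermat.Agent.CFT.Recip.Glob
import Fermat.Agent.CFT.Recip.Conj
import Fermat.Agent.CFT.LS.BrP
import Fermat.Agent.CFT.LS.Inst

/-!
# CFT / Recip : local triviality over `ℚ(ζ_{p²})` at all places above `S`
-/

set_option autoImplicit false

namespace Fermat.Agent.CFT.Recip

open Fermat.Agent.CFT Fermat.Agent.CFT.Global ExtCitation Fermat.Agent.Bridge

variable {p : ℕ} [Fact p.Prime] {S : Finset Nat.Primes}

theorem Z2_levAll_of_levS {k : Type} [CommRing k] {V : Type} [AddCommGroup V] [Module k V]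
    {ρ : Representation k GQ V} {x : GQ × GQ → V} (hx : x ∈ Z2 (levS S) ρ) : x ∈ Z2 levAll ρ := by
  obtain ⟨h1, U, hU, h2⟩ := hx
  exact ⟨h1, U, levS_le_levAll S hU, h2⟩

/-- pull-back of a coboundary on a subgroup `D` along `j : H →* G` with image in `D` -/
theorem comp_mem_B2_of_mem {k : Type} [CommRing k] {V : Type} [AddCommGroup V] [Module k V]
    {G : Type} [Group G] {𝒰 : Levels G} {ρ : Representation k G V} {x : G × G → V}
    {D : Subgroup G}
    (hB : x ∘ Prod.map D.subtype D.subtype ∈ B2 (𝒰.comap D.subtype) (ρ.comp D.subtype))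
    {H : Type} [Group H] (j : H →* G) (hj : ∀ h, j h ∈ D) :
    x ∘ Prod.map j j ∈ B2 (𝒰.comap j) (ρ.comp j) := by
  have h := comp_hom_mem_B2 (𝒱 := 𝒰.comap j) (j.codRestrict D hj) (by
    rintro _ ⟨U, hU, rfl⟩
    exact ⟨_, ⟨U, hU, rfl⟩, le_rfl⟩) hB
  have e1 : (x ∘ Prod.map D.subtype D.subtype) ∘ Prod.map (j.codRestrict D hj) (j.codRestrict D hj)
      = x ∘ Prod.map j j := by
    funext ⟨a, b⟩
    rfl
  have e2 : (ρ.comp D.subtype).comp (j.codRestrict D hj) = ρ.comp j := MonoidHom.ext fun _ => rfl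
  rw [e1, e2] at h
  exact h

/-- conjugation, abstract form -/
theorem comp_mem_B2_of_conj_mem {k : Type} [CommRing k] {V : Type} [AddCommGroup V] [Module k V]
    {G : Type} [Group G] {𝒰 : Levels G} {ρ : Representation k G V} {x : G × G → V}
    (hx : x ∈ Z2 𝒰 ρ) {D : Subgroup G}
    (hB : x ∘ Prod.map D.subtype D.subtype ∈ B2 (𝒰.comap D.subtype) (ρ.comp D.subtype))
    {H : Type} [Group H] (j : H →* G) (g : G) (hj : ∀ h, g⁻¹ * j h * g ∈ D) :
    x ∘ Prod.map j j ∈ B2 (𝒰.comap j) (ρ.comp j) := by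
  let j₀ : H →* G := (MulAut.conj g⁻¹).toMonoidHom.comp j
  have hj₀ : ∀ h, j₀ h = g⁻¹ * j h * g := fun h => by
    change g⁻¹ * j h * g⁻¹⁻¹ = _
    rw [inv_inv]
  have h1 : x ∘ Prod.map j₀ j₀ ∈ B2 (𝒰.comap j₀) (ρ.comp j₀) :=
    comp_mem_B2_of_mem hB j₀ (fun h => by rw [hj₀]; exact hj h)
  refine conj_res_mem_B2 hx g j₀ j (fun h => ?_) h1
  rw [hj₀]
  group

/-- local triviality at `primeLocalPlace q` implies local triviality at every place above `q` -/
theorem loc_of_conj {k : Type} [CommRing k] {V : Type} [AddCommGroup V] [Module k V]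
    {ρ : Representation k GQ V} {x : GQ × GQ → V} (hx : x ∈ Z2 levAll ρ) {q : Nat.Primes}
    (hB : x ∘ Prod.map (decomp q).subtype (decomp q).subtype ∈
      B2 (levAll.comap (decomp q).subtype) (ρ.comp (decomp q).subtype))
    {A : ValuationSubring Qb} (hA : A.LiesOverPrime (q : ℕ)) {H : Type} [Group H] (j : H →* GQ)
    (hj : ∀ h, j h ∈ A.decompositionSubgroup ℚ) :
    x ∘ Prod.map j j ∈ B2 (levAll.comap j) (ρ.comp j) := by
  obtain ⟨g, rfl⟩ := exists_smul_eq q.2 (LS.liesOverPrime_primeLocalPlace q) hA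
  exact comp_mem_B2_of_conj_mem hx hB j g (fun h => mem_decomposition_smul_iff.1 (hj h))

section Mu

variable {ζ : Qb} {z : VS S} {mu : ZMod p →+ VS S}

theorem incl_mu_comp_mem_B2 (hζ : IsPrimitiveRoot ζ p) (hz : toQb (inclS S z) = ζ)
    (hmu : ∀ i : ZMod p, mu i = i.val • z) {H : Type} [Group H] (j : H →* GQ) {𝒱 : Levels H}
    {c : H × H → ZMod p} (hc : c ∈ B2 𝒱 ((chiRep (cycloChar p)).comp j)) :
    (fun g => inclS S (mu (c g))) ∈ B2 𝒱 (rhoQ.comp j) :=
  add_comp_mem_B2 (σ := rhoQ.comp j) ((inclS S).toAddMonoidHom.comp mu)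
    (fun g v => congrArg (inclS S) (mu_equivariant hζ hz hmu (j g) v)) hc

theorem incl_mu_comp_mem_Z2 (hζ : IsPrimitiveRoot ζ p) (hz : toQb (inclS S z) = ζ)
    (hmu : ∀ i : ZMod p, mu i = i.val • z) {H : Type} [Group H] (j : H →* GQ) {𝒱 : Levels H}
    {c : H × H → ZMod p} (hc : c ∈ Z2 𝒱 ((chiRep (cycloChar p)).comp j)) :
    (fun g => inclS S (mu (c g))) ∈ Z2 𝒱 (rhoQ.comp j) :=
  add_comp_mem_Z2 (σ := rhoQ.comp j) ((inclS S).toAddMonoidHom.comp mu)
    (fun g v => congrArg (inclS S) (mu_equivariant hζ hz hmu (j g) v)) hc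

/-- **(l4)** at the places above `p` -/
theorem loc_at_p (hls : LocSurj p) (hζ : IsPrimitiveRoot ζ p) (hz : toQb (inclS S z) = ζ)
    (hmu : ∀ i : ZMod p, mu i = i.val • z) {χ : GQ →* Multiplicative (ZMod p)}
    (hχ : χ.ker = MM p) {x : GQ × GQ → ZMod p} (hx : x ∈ Z2 levAll (chiRep (cycloChar p)))
    {A : ValuationSubring Qb} (hA : A.LiesOverPrime p) {H : Type} [Group H] (j : H →* GQ)
    (hj : ∀ h, j h ∈ A.decompositionSubgroup ℚ) (hjV : ∀ h, j h ∈ VV p) :
    (fun g : H × H => inclS S (mu (x (j g.1, j g.2)))) ∈ B2 (levAll.comap j) (rhoQ.comp j) := by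
  have hp : p.Prime := Fact.out
  set D : Subgroup GQ := A.decompositionSubgroup ℚ with hD
  have hLS : LS.IsLocSys (Ω := Qb) (levAll.comap D.subtype) A.valuation :=
    LS.isLocSys_decompositionSubgroup hp hA
  set ψ : ↥D →* Multiplicative (ZMod p) := χ.comp D.subtype with hψ
  have hψs : Br.IsSmoothChar (levAll.comap D.subtype) ψ := by
    obtain ⟨U, hU, hle⟩ := exists_levS_le_VV (p := p) {pPrime p} (Finset.mem_singleton_self _)
    refine ⟨_, ⟨U, levS_le_levAll _ hU, rfl⟩, fun s hs => ?_⟩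
    have : (s : GQ) ∈ χ.ker := hχ ▸ VV_le_MM (hle hs)
    exact this
  have hσ : ∃ σ, ψ σ = Multiplicative.ofAdd 1 := by
    obtain ⟨τ, hτD, hτ⟩ := hls A hA
    have hτ' : ψ ⟨τ, hτD⟩ ≠ 1 := fun h => hτ (hχ ▸ (MonoidHom.mem_ker.2 h : τ ∈ χ.ker))
    obtain ⟨m, hm⟩ := exists_pow_chi_eq_one hτ'
    exact ⟨_, hm⟩
  have hc : (fun g : ↥D × ↥D => inclS S (mu (x (D.subtype g.1, D.subtype g.2)))) ∈
      Z2 (levAll.comap D.subtype) (Br.uRep ↥D Qb) :=
    incl_mu_comp_mem_Z2 hζ hz hmu D.subtype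
      (comp_hom_mem_Z2 (𝒱 := levAll.comap D.subtype) D.subtype (Levels.comap_cont _ _) hx)
  have hpc : p • (fun g : ↥D × ↥D => inclS S (mu (x (D.subtype g.1, D.subtype g.2)))) ∈
      B2 (levAll.comap D.subtype) (Br.uRep ↥D Qb) := by
    have h0 : p • (fun g : ↥D × ↥D => inclS S (mu (x (D.subtype g.1, D.subtype g.2)))) = 0 := by
      funext g
      rw [Pi.smul_apply, ← map_nsmul, ← map_nsmul, nsmul_eq_mul, ZMod.natCast_self, zero_mul,
        map_zero, map_zero]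
      rfl
    rw [h0]
    exact Submodule.zero_mem _
  have key := hLS.res_mem_B2_of_index_p hψs hσ hc hpc
  have hker : ∀ h, j.codRestrict D hj h ∈ ψ.ker := fun h => by
    have : j h ∈ χ.ker := hχ ▸ VV_le_MM (hjV h)
    exact this
  have key2 := comp_mem_B2_of_mem (𝒰 := levAll.comap D.subtype) (ρ := Br.uRep ↥D Qb) key
    (j.codRestrict D hj) hker
  rw [comap_comap_eq] at key2
  exact key2

/-- **RC-LOCV** -/
theorem locV (hls : LocSurj p) (hζ : IsPrimitiveRoot ζ p) (hz : toQb (inclS S z) = ζ)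
    (hmu : ∀ i : ZMod p, mu i = i.val • z) {χ : GQ →* Multiplicative (ZMod p)}
    (hχ : χ.ker = MM p) {x : GQ × GQ → ZMod p} (hx : x ∈ Z2 (levS S) (chiRep (cycloChar p)))
    (hloc : ∀ q ∈ S, q ≠ pPrime p →
      x ∘ Prod.map (decomp q).subtype (decomp q).subtype ∈
        B2 (levAll.comap (decomp q).subtype) ((chiRep (cycloChar p)).comp (decomp q).subtype)) :
    ∀ q ∈ S, ∀ A : ValuationSubring Qb, A.LiesOverPrime ((q : Nat.Primes) : ℕ) →
      ∀ (H : Type) [Group H] (j : H →* GQ), (∀ h, j h ∈ A.decompositionSubgroup ℚ) →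
        (∀ h, j h ∈ VV p) →
        (fun g : H × H => inclS S (mu (x (j g.1, j g.2)))) ∈ B2 (levAll.comap j) (rhoQ.comp j) := by
  intro q hq A hA H _ j hj hjV
  by_cases hqp : q = pPrime p
  · subst hqp
    exact loc_at_p hls hζ hz hmu hχ (Z2_levAll_of_levS hx) hA j hj hjV
  · exact incl_mu_comp_mem_B2 hζ hz hmu j
      (loc_of_conj (Z2_levAll_of_levS hx) (hloc q hq hqp) hA j hj)

end Mu

end Fermat.Agent.CFT.Recip
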