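import Fermat.Agent.CFT.Recip.LocP
import Fermat.Agent.CFT.Recip.LocV

/-! # CFT / Recip, RC-CORE : from `μ ∘ x ~ (χ, a)` and local triviality at `q ∈ S ∖ {p}` to local
triviality (in `ℚbarˣ`) at `p`. -/

set_option autoImplicit false

namespace Fermat.Agent.CFT.Recip

open Fermat.Agent.CFT Fermat.Agent.CFT.Global Fermat.Agent.Bridge ExtCitation Finset

variable {p : ℕ} [Fact p.Prime] {S : Finset Nat.Primes}

/-- an element of `ℚbar` fixed by `GQ` is rational -/
theorem exists_rat_of_fixed_core {y : Qb} (hy : ∀ g : GQ, g y = y) : ∃ r : ℚ, algebraMap ℚ Qb r = y :=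
  exists_of_fixed (φ := algebraMap ℚ Qb) (fun σ _ => hy σ)

/-- the valuation condition does not depend on the place above `l` -/
theorem val_cond_of_place {l : ℕ} (hl : l.Prime) {A A' : ValuationSubring Qb}
    (hA : A.LiesOverPrime l) (hA' : A'.LiesOverPrime l) {r : ℚ} (hr : r ≠ 0) {n : ℤ}
    (h : A.valuation (algebraMap ℚ Qb r) = A.valuation (l : Qb) ^ n) :
    A'.valuation (algebraMap ℚ Qb r) = A'.valuation (l : Qb) ^ n := by
  rw [valuation_ratCast hl hA hr] at h
  have h1 : padicValRat l r = n := zpow_valuation_natCast_injective hl hA h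
  rw [valuation_ratCast hl hA' hr, h1]

/-- non-splitting does not depend on the place above `l` -/
theorem exists_notMem_MM_of_place {l : ℕ} (hl : l.Prime) {A A' : ValuationSubring Qb}
    (hA : A.LiesOverPrime l) (hA' : A'.LiesOverPrime l)
    (h : ∃ τ ∈ A'.decompositionSubgroup ℚ, τ ∉ MM p) :
    ∃ τ ∈ A.decompositionSubgroup ℚ, τ ∉ MM p := by
  obtain ⟨g, rfl⟩ := exists_smul_eq hl hA hA'
  obtain ⟨τ, hτ, hτM⟩ := h
  refine ⟨g⁻¹ * τ * g, mem_decomposition_smul_iff.1 hτ, fun hM => hτM ?_⟩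
  have := (inferInstance : (MM p).Normal).conj_mem _ hM g
  simpa [mul_assoc] using this

/-- **RC-CORE** -/
theorem core (hp2 : p ≠ 2) {mu : ZMod p →+ VS S}
    {χ : GQ →* Multiplicative (ZMod p)} (hχ : χ.ker = MM p) {x : GQ × GQ → ZMod p} {a : VS S}
    (ha : ∀ g, rhoS S g a = a)
    (hxa : (fun g => mu (x g)) - cyc χ a ∈ B2 (levS S) (rhoS S))
    (hloc : ∀ q ∈ S, q ≠ pPrime p →
      (fun g : ↥(decomp q) × ↥(decomp q) =>
          inclS S (mu (x ((decomp q).subtype g.1, (decomp q).subtype g.2)))) ∈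
        B2 (levAll.comap (decomp q).subtype) (rhoQ.comp (decomp q).subtype))
    {A : ValuationSubring Qb} (hA : A.LiesOverPrime p) :
    (fun g : ↥(A.decompositionSubgroup ℚ) × ↥(A.decompositionSubgroup ℚ) =>
        inclS S (mu (x ((A.decompositionSubgroup ℚ).subtype g.1,
          (A.decompositionSubgroup ℚ).subtype g.2)))) ∈
      B2 (levAll.comap (A.decompositionSubgroup ℚ).subtype)
        (rhoQ.comp (A.decompositionSubgroup ℚ).subtype) := by
  have ha' : ∀ g, rhoQ g (inclS S a) = inclS S a := fun g => congrArg (inclS S) (ha g)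
  obtain ⟨a₀, ha₀⟩ := exists_rat_of_fixed_core (y := toQb (inclS S a))
    (fun g => congrArg toQb (ha' g))
  have ha₀0 : a₀ ≠ 0 := by
    rintro rfl
    rw [map_zero] at ha₀
    exact toQb_ne_zero _ ha₀.symm
  obtain ⟨k, y, hy0, hy, hay⟩ := arithFin hp2 a₀ ha₀0 (by
    intro l hl hlp A' hA' hτ
    rw [ha₀]
    by_cases hq : (⟨l, hl⟩ : Nat.Primes) ∈ S
    · -- `l ∈ S`
      set q : Nat.Primes := ⟨l, hl⟩ with hqdef
      have hqp : q ≠ pPrime p := fun h => hlp (congrArg Subtype.val h)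
      have hA₀ : (primeLocalPlace q).LiesOverPrime l := LS.liesOverPrime_primeLocalPlace q
      have hcyc : cyc (χ.comp (decomp q).subtype) (inclS S a) ∈
          B2 (levAll.comap (decomp q).subtype) (rhoQ.comp (decomp q).subtype) := by
        have := Submodule.sub_mem _ (hloc q hq hqp) (loc_sub_cyc_mem_B2 hxa (decomp q).subtype)
        rwa [sub_sub_cancel] at this
      obtain ⟨n, hn⟩ := val_of_cyc_mem_B2 hχ hl hlp hA₀ ha' hcyc
        (exists_notMem_MM_of_place hl hA₀ hA' hτ)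
      refine ⟨n, ?_⟩
      rw [← ha₀] at hn ⊢
      exact val_cond_of_place hl hA₀ hA' ha₀0 hn
    · -- `l ∉ S`
      obtain ⟨τ, hτD, hτM⟩ := hτ
      have hτ' : χ τ ≠ 1 := fun h => hτM (hχ ▸ MonoidHom.mem_ker.2 h)
      have hxa' : (fun g => mu (x g)) - cyc χ a ∈
          B2 ((levS S).comap (MonoidHom.id GQ)) ((rhoS S).comp (MonoidHom.id GQ)) := by
        rw [comap_id_eq]
        exact hxa
      exact exists_val_eq_zpow_mul (MonoidHom.id GQ) χ mu x a hxa' (q := ⟨l, hl⟩) hq hA' hτD hτ')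
    A hA
  rw [ha₀] at hay
  have hcyc := cyc_mem_B2_at_p hχ hA ha' hy0 hy hay
  have := Submodule.add_mem _ (loc_sub_cyc_mem_B2 hxa (A.decompositionSubgroup ℚ).subtype) hcyc
  rwa [sub_add_cancel] at this

end Fermat.Agent.CFT.Recip
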