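import Fermat.Agent.CFT.Recip.LocSurj
import Fermat.Agent.CFT.Recip.Arith

/-! # CFT / Recip, RC-FIN : the arithmetic half of reciprocity over `ℚ`. -/

set_option autoImplicit false

namespace Fermat.Agent.CFT.Recip

open Fermat.Agent.CFT Fermat.Agent.Bridge Fermat.Agent.S54

variable {p : ℕ} [Fact p.Prime]

/-- the local condition at `l ≠ p` in terms of `l mod p²` -/
theorem natCast_pow_eq_one_of_cond {a : ℚ} (ha : a ≠ 0) {l : ℕ} (hl : l.Prime) (hlp : l ≠ p)
    (h : ∀ A : ValuationSubring Qb, A.LiesOverPrime l →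
      (∃ τ ∈ A.decompositionSubgroup ℚ, τ ∉ MM p) →
        ∃ n : ℤ, A.valuation (algebraMap ℚ Qb a) = A.valuation ((l : ℕ) : Qb) ^ ((p : ℤ) * n)) :
    ((l : ZMod (p ^ 2))) ^ ((p - 1) * (padicValRat l a).natAbs) = 1 := by
  have hp : p.Prime := Fact.out
  have hcop : Nat.Coprime l (p ^ 2) := Nat.Coprime.pow_right 2 ((Nat.coprime_primes hl hp).2 hlp)
  obtain ⟨A, σ, hA, hσ⟩ := exists_isFrobeniusAt hl
  have hc : (c2 p σ : ZMod (p ^ 2)) = l := cycloChar_of_isFrobeniusAt hl hA hcop hσ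
  by_cases hM : σ ∈ MM p
  · rw [mem_MM] at hM
    have h1 : ((l : ZMod (p ^ 2))) ^ (p - 1) = 1 := by
      rw [← hc, ← Units.val_pow_eq_pow_val, hM, Units.val_one]
    rw [pow_mul, h1, one_pow]
  · obtain ⟨n, hn⟩ := h A hA ⟨σ, hσ.mem_decompositionSubgroup, hM⟩
    rw [valuation_ratCast hl hA ha] at hn
    have h2 : padicValRat l a = (p : ℤ) * n := zpow_valuation_natCast_injective hl hA hn
    have h3 : ((l : ZMod (p ^ 2))) ^ (p * (p - 1)) = 1 := by
      have := ZMod.pow_totient (c2 p σ)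
      rw [Nat.totient_prime_pow hp two_pos, show 2 - 1 = 1 from rfl, pow_one] at this
      rw [← hc, ← Units.val_pow_eq_pow_val, this, Units.val_one]
    rw [h2, Int.natAbs_mul, Int.natAbs_natCast,
      show (p - 1) * (p * n.natAbs) = p * (p - 1) * n.natAbs by ring, pow_mul, h3, one_pow]

/-- Hensel: a rational number `≡ 1 mod p²` is a `p`-th power in `ℚ_p` (`p` odd) -/
theorem exists_root_of_valuation_le (hp2 : p ≠ 2) {A : ValuationSubring Qb}
    (hA : A.LiesOverPrime p) {x : ℚ}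
    (hx : A.valuation (algebraMap ℚ Qb x - 1) ≤ A.valuation (p : Qb) ^ 2) :
    ∃ y : Qb, y ^ p = algebraMap ℚ Qb x ∧ ∀ g ∈ A.decompositionSubgroup ℚ, g y = y := by
  have hp : p.Prime := Fact.out
  obtain ⟨ζ, hζ⟩ := GAL.exists_primitiveRoot_Zbar p
  have h1 := valuation_natCast_eq_pow (A := A) hp hζ
  have hlt : A.valuation (p : Qb) < 1 := valuation_prime_lt_one hA
  have hne : A.valuation (p : Qb) ≠ 0 := valuation_prime_ne_zero hp
  have hw0 : A.valuation ((ζ : Qb) - 1) ≠ 0 := by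
    intro h0
    rw [h0, zero_pow (by have := hp.two_le; omega)] at h1
    exact hne h1
  have hw1 : A.valuation ((ζ : Qb) - 1) < 1 := by
    by_contra hge
    rw [not_lt] at hge
    have : 1 ≤ A.valuation ((ζ : Qb) - 1) ^ (p - 1) := one_le_pow₀ hge
    rw [← h1] at this
    exact absurd hlt (not_lt.2 this)
  have h2 : A.valuation (p : Qb) ^ 2 < A.valuation ((ζ : Qb) - 1) ^ p := by
    rw [h1, ← pow_mul]
    refine pow_lt_pow_right_of_lt_one₀ (zero_lt_iff.2 hw0) hw1 ?_
    have := hp.two_le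
    have h3 : 3 ≤ p := by omega
    obtain ⟨k, rfl⟩ : ∃ k, p = k + 3 := ⟨p - 3, by omega⟩
    have e : k + 3 - 1 = k + 2 := by omega
    rw [e]
    omega
  obtain ⟨y, hy, -, hfix⟩ := exists_root_fixed hp hζ (lt_of_le_of_lt hx h2)
  exact ⟨y, hy, fun g hg => hfix g hg (g.commutes x)⟩

/-- **RC-FIN** -/
theorem arithFin (hp2 : p ≠ 2) : ArithFin p := by
  intro a ha hcond A hA
  have hp : p.Prime := Fact.out
  have hpQ : (p : ℚ) ≠ 0 := by exact_mod_cast hp.ne_zero
  set k₀ : ℤ := padicValRat p a with hk₀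
  set r : ℚ := a / (p : ℚ) ^ k₀ with hr
  have hr0 : r ≠ 0 := div_ne_zero ha (zpow_ne_zero _ hpQ)
  have hvp : padicValRat p r = 0 := by
    rw [hr, padicValRat.div ha (zpow_ne_zero _ hpQ), padicValRat.zpow, padicValRat.self hp.one_lt,
      mul_one, sub_self]
  have hvl : ∀ l : ℕ, l.Prime → l ≠ p → padicValRat l r = padicValRat l a := by
    intro l hl hlp
    have : Fact l.Prime := ⟨hl⟩
    have h0 : padicValRat l (p : ℚ) = 0 := by
      rw [padicValRat.of_nat, padicValNat_primes hlp]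
      rfl
    rw [hr, padicValRat.div ha (zpow_ne_zero _ hpQ), padicValRat.zpow, h0, mul_zero, sub_zero]
  have hdvd := arith hp2 hr0 hvp (fun l hl hlp => by
    rw [hvl l hl hlp]
    exact natCast_pow_eq_one_of_cond ha hl hlp (hcond l hl hlp))
  -- `p ∤ r.den`
  have hden : ¬ p ∣ r.den := by
    intro hd
    have h1 : ¬ p ∣ r.num.natAbs :=
      fun hd' => Nat.Prime.not_coprime_iff_dvd.2 ⟨p, hp, hd', hd⟩ r.reduced
    have h2 : padicValRat p r = (padicValNat p r.num.natAbs : ℤ) - padicValNat p r.den := rfl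
    rw [hvp, padicValNat.eq_zero_of_not_dvd h1] at h2
    have h3 : 1 ≤ padicValNat p r.den := one_le_padicValNat_of_dvd r.den_ne_zero hd
    omega
  have hdenv : A.valuation (r.den : Qb) = 1 := valuation_natCast_eq_one hp hA hden
  have hden0 : (r.den : Qb) ≠ 0 := by exact_mod_cast r.den_ne_zero
  obtain ⟨c, hc⟩ := hdvd
  have e1 : algebraMap ℚ Qb (r ^ (p - 1)) - 1
      = ((p : Qb) ^ 2 * (c : Qb)) / (r.den : Qb) ^ (p - 1) := by
    have e2 : algebraMap ℚ Qb r = (r.num : Qb) / (r.den : Qb) := by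
      conv_lhs => rw [← Rat.num_div_den r]
      rw [map_div₀, map_intCast, map_natCast]
    have e3 : (r.num : Qb) ^ (p - 1) - (r.den : Qb) ^ (p - 1) = (p : Qb) ^ 2 * (c : Qb) := by
      exact_mod_cast congrArg (Int.cast : ℤ → Qb) hc
    rw [map_pow, e2, div_pow, ← e3]
    field_simp
  have hle : A.valuation (algebraMap ℚ Qb (r ^ (p - 1)) - 1) ≤ A.valuation (p : Qb) ^ 2 := by
    rw [e1, map_div₀, map_pow, hdenv, one_pow, div_one, map_mul, map_pow]
    exact mul_le_of_le_one_right zero_le (valuation_intCast_le_one c)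
  obtain ⟨y, hy, hfix⟩ := exists_root_of_valuation_le hp2 hA hle
  refine ⟨k₀ * ((p - 1 : ℕ) : ℤ), y, ?_, hfix, ?_⟩
  · rintro rfl
    rw [zero_pow hp.ne_zero] at hy
    exact pow_ne_zero _ hr0 ((map_eq_zero _).1 hy.symm)
  · rw [hy, map_pow, hr, map_div₀, map_zpow₀, map_natCast, div_pow, zpow_mul, zpow_natCast]
    have : ((p : Qb) ^ k₀) ^ (p - 1) ≠ 0 :=
      pow_ne_zero _ (zpow_ne_zero _ (by exact_mod_cast hp.ne_zero))
    field_simp

end Fermat.Agent.CFT.Recip
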