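import Fermat.Agent.CFT.F.Spec

/-! # CFT / Recip, RC0: the formal reduction of `PTHyp.recip`.

`recip` follows from: a class `x₀` at one place `v₀` which is a corestriction from every level, and
which is not the localisation of a global class that is trivial at all other places. -/

set_option autoImplicit false

namespace Fermat.Agent.CFT.Recip

open Fermat.Agent.CFT

/-- linear algebra: a functional on a finite product, killing `R`, normalised at `single v₀ x₀` -/
theorem exists_family_functional {k : Type} [Field k] {ι : Type} [Fintype ι] [DecidableEq ι]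
    (E : ι → Type) [∀ v, AddCommGroup (E v)] [∀ v, Module k (E v)]
    (R : Submodule k (∀ v, E v)) (v₀ : ι) (x₀ : E v₀) (h : Pi.single v₀ x₀ ∉ R) :
    ∃ lam : ∀ v, E v →ₗ[k] k, (∀ e ∈ R, ∑ v, lam v (e v) = 0) ∧ lam v₀ x₀ = 1 := by
  obtain ⟨f, hf0, hfR⟩ := Submodule.exists_dual_map_eq_bot_of_notMem h inferInstance
  refine ⟨fun v => (f (Pi.single v₀ x₀))⁻¹ • (f ∘ₗ LinearMap.single k E v), fun e he => ?_, ?_⟩
  · have h1 : f e = 0 := by
      have : f e ∈ R.map f := Submodule.mem_map_of_mem he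
      rw [hfR] at this
      exact (Submodule.mem_bot k).1 this
    have h2 : ∑ v, f (Pi.single v (e v)) = f e := by
      rw [← map_sum, Finset.univ_sum_single]
    simp only [LinearMap.smul_apply, LinearMap.comp_apply, LinearMap.single_apply, smul_eq_mul]
    rw [← Finset.mul_sum, h2, h1, mul_zero]
  · simp only [LinearMap.smul_apply, LinearMap.comp_apply, LinearMap.single_apply, smul_eq_mul]
    exact inv_mul_cancel₀ hf0

variable (D : Datum) {k : Type} [Field k] (χ : D.G →* kˣ)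

/-- **RC0**: the formal reduction of `PTHyp.recip`. -/
theorem recip_of (v₀ : D.ι) (x₀ : D.Gv v₀ × D.Gv v₀ → k)
    (hcores : ∀ W ∈ (D.levv v₀).carrier, ∀ _ : Fintype (D.Gv v₀ ⧸ W),
      ∃ c ∈ Z2 (D.levv v₀) (mapRep W (D.loc (chiRep χ) v₀)),
        (fun g => mapRepSum (k := k) W (c g)) - x₀ ∈ B2 (D.levv v₀) (D.loc (chiRep χ) v₀))
    (hglob : ∀ a ∈ Z2 D.lev (chiRep χ),
      (∀ v, v ≠ v₀ → D.res2 (k := k) a v ∈ B2 (D.levv v) (D.loc (chiRep χ) v)) →
       D.res2 (k := k) a v₀ - x₀ ∉ B2 (D.levv v₀) (D.loc (chiRep χ) v₀)) :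
    ∃ lam : ∀ v : D.ι, (D.Gv v × D.Gv v → k) →ₗ[k] k,
    (∀ v, ∀ b ∈ B2 (D.levv v) (D.loc (chiRep χ) v), lam v b = 0) ∧
    (∀ a ∈ Z2 D.lev (chiRep χ), ∑ v, lam v (D.res2 (k := k) a v) = 0) ∧
    ∃ v₀ : D.ι, ∀ W ∈ (D.levv v₀).carrier, ∀ _ : Fintype (D.Gv v₀ ⧸ W),
      ∃ c ∈ Z2 (D.levv v₀) (mapRep W (D.loc (chiRep χ) v₀)),
        lam v₀ (fun g => mapRepSum (k := k) W (c g)) ≠ 0 := by
  have hnot : Pi.single v₀ x₀ ∉ D.RL2 (chiRep χ) := by
    intro hmem
    obtain ⟨b, hb, r, ⟨a, ha, rfl⟩, hbr⟩ := Submodule.mem_sup.1 hmem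
    refine hglob a ha (fun v hv => ?_) ?_
    · have h1 := congrFun hbr v
      rw [Pi.add_apply, Pi.single_eq_of_ne hv] at h1
      rw [eq_neg_of_add_eq_zero_right h1]
      exact neg_mem (hb v (Set.mem_univ v))
    · have h1 := congrFun hbr v₀
      rw [Pi.add_apply, Pi.single_eq_same] at h1
      rw [← h1, sub_add_cancel_right]
      exact neg_mem (hb v₀ (Set.mem_univ v₀))
  obtain ⟨lam, hlam, hlam0⟩ := exists_family_functional (k := k)
    (fun v => D.Gv v × D.Gv v → k) (D.RL2 (chiRep χ)) v₀ x₀ hnot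
  have hB : ∀ v, ∀ b ∈ B2 (D.levv v) (D.loc (chiRep χ) v), lam v b = 0 := by
    intro v b hb
    have hmem : (Pi.single v b : ∀ v, D.Gv v × D.Gv v → k) ∈ D.RL2 (chiRep χ) := by
      refine Submodule.mem_sup_left fun w _ => ?_
      rcases eq_or_ne w v with rfl | hw
      · rw [Pi.single_eq_same]; exact hb
      · rw [Pi.single_eq_of_ne hw]; exact zero_mem _
    have h1 := hlam _ hmem
    rw [Finset.sum_eq_single v] at h1
    · rwa [Pi.single_eq_same] at h1
    · intro w _ hw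
      rw [Pi.single_eq_of_ne hw, map_zero]
    · intro h; exact absurd (Finset.mem_univ v) h
  refine ⟨lam, hB, fun a ha => hlam _ (Submodule.mem_sup_right ⟨a, ha, rfl⟩), v₀,
    fun W hW inst => ?_⟩
  obtain ⟨c, hc, hcx⟩ := hcores W hW inst
  refine ⟨c, hc, ?_⟩
  have h1 := hB v₀ _ hcx
  rw [map_sub, hlam0, sub_eq_zero] at h1
  rw [h1]
  exact one_ne_zero

end Fermat.Agent.CFT.Recip
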