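import Fermat.Agent.CFT.K.Datum
import Fermat.Agent.GAL.CycloChar
import Fermat.Agent.Common.PlaceBridgeHens

/-! # CFT / Recip, RC-FROB : `GAL.cycloChar n` at places prime to `n`
(`χ_n(Frob_ℓ) = ℓ`, `χ_n` is unramified at `ℓ ∤ n`). -/

set_option autoImplicit false

namespace Fermat.Agent.CFT.Recip

open Fermat.Agent.CFT Fermat.Agent.S54 Fermat.Agent.Bridge

variable {n : ℕ} [NeZero n] {ℓ : ℕ} {A : ValuationSubring Qb} {σ : GQ}

/-- two `n`-th roots of unity which are congruent modulo a place prime to `n` are equal -/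
theorem eq_of_valuation_sub_lt_one (hℓ : ℓ.Prime) (hA : A.LiesOverPrime ℓ) (hn : Nat.Coprime ℓ n)
    {μ ν : Qb} (hμ : μ ^ n = 1) (hν : ν ^ n = 1) (h : A.valuation (μ - ν) < 1) : μ = ν := by
  by_contra hne
  have hν0 : ν ≠ 0 := by
    rintro rfl
    rw [zero_pow (NeZero.ne n)] at hν
    exact zero_ne_one hν
  have h1 : (μ / ν) ^ n = 1 := by rw [div_pow, hμ, hν, div_one]
  have h2 : μ / ν ≠ 1 := by
    intro h
    rw [div_eq_one_iff_eq hν0] at h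
    exact hne h
  have h3 := valuation_sub_one_eq_one hA hℓ hn h1 h2
  have h4 : μ - ν = (μ / ν - 1) * ν := by field_simp
  rw [h4, map_mul, h3, one_mul, valuation_eq_one_of_pow_eq_one (NeZero.ne n) hν] at h
  exact lt_irrefl _ h

/-- a Frobenius element at `ℓ ∤ n` raises `n`-th roots of unity to the `ℓ`-th power -/
theorem apply_eq_pow_of_isFrobeniusAt (hℓ : ℓ.Prime) (hA : A.LiesOverPrime ℓ)
    (hn : Nat.Coprime ℓ n) (hσ : A.IsFrobeniusAt σ ℓ) {ζ : Qb} (hζ : ζ ^ n = 1) :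
    σ ζ = ζ ^ ℓ := by
  have hint : IsIntegral ℤ ζ :=
    ⟨Polynomial.X ^ n - 1, Polynomial.monic_X_pow_sub_C 1 (NeZero.ne n), by simp [hζ]⟩
  have h1 := sub_pow_mem_centre_of_isFrobeniusAt hσ (⟨ζ, hint⟩ : integralClosure ℤ Qb)
  rw [mem_centre_iff] at h1
  refine eq_of_valuation_sub_lt_one hℓ hA hn ?_ ?_ h1
  · rw [← map_pow, hζ, map_one]
  · rw [← pow_mul, mul_comm, pow_mul, hζ, one_pow]

/-- inertia at `ℓ ∤ n` fixes the `n`-th roots of unity -/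
theorem apply_eq_of_mem_inertia (hℓ : ℓ.Prime) (hA : A.LiesOverPrime ℓ)
    (hn : Nat.Coprime ℓ n) (hσ : σ ∈ A.inertiaSubgroupIn ℚ) {ζ : Qb} (hζ : ζ ^ n = 1) :
    σ ζ = ζ := by
  have h1 := valuation_sub_lt_one_of_mem_inertia hσ
    (valuation_eq_one_of_pow_eq_one (A := A) (NeZero.ne n) hζ).le
  refine eq_of_valuation_sub_lt_one hℓ hA hn ?_ hζ h1
  rw [← map_pow, hζ, map_one]

/-- **RC-FROB** `χ_n(Frob_ℓ) = ℓ` -/
theorem cycloChar_of_isFrobeniusAt (hℓ : ℓ.Prime) (hA : A.LiesOverPrime ℓ)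
    (hn : Nat.Coprime ℓ n) (hσ : A.IsFrobeniusAt σ ℓ) :
    (Fermat.Agent.GAL.cycloChar n σ : ZMod n) = ℓ := by
  obtain ⟨ζ, hζ⟩ := Fermat.Agent.GAL.exists_primitiveRoot_Zbar n
  exact Fermat.Agent.GAL.cycloChar_eq_of_primitiveRoot n σ hζ
    (apply_eq_pow_of_isFrobeniusAt hℓ hA hn hσ hζ.pow_eq_one)

/-- **RC-FROB** `χ_n` is unramified at `ℓ ∤ n` -/
theorem cycloChar_of_mem_inertia (hℓ : ℓ.Prime) (hA : A.LiesOverPrime ℓ)
    (hn : Nat.Coprime ℓ n) (hσ : σ ∈ A.inertiaSubgroupIn ℚ) :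
    Fermat.Agent.GAL.cycloChar n σ = 1 := by
  obtain ⟨ζ, hζ⟩ := Fermat.Agent.GAL.exists_primitiveRoot_Zbar n
  have h1 : σ (ζ : Qb) = (ζ : Qb) ^ 1 := by
    rw [pow_one]
    exact apply_eq_of_mem_inertia hℓ hA hn hσ hζ.pow_eq_one
  have h2 := Fermat.Agent.GAL.cycloChar_eq_of_primitiveRoot n σ hζ h1
  exact Units.ext (by simpa using h2)

/-- there is an element of the decomposition group with `χ_n = ℓ` -/
theorem exists_mem_decomposition_cycloChar (hℓ : ℓ.Prime) (hA : A.LiesOverPrime ℓ)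
    (hn : Nat.Coprime ℓ n) :
    ∃ σ ∈ A.decompositionSubgroup ℚ, (Fermat.Agent.GAL.cycloChar n σ : ZMod n) = ℓ := by
  obtain ⟨σ, hσ⟩ := exists_isFrobeniusAt_of_liesOverPrime hℓ A hA
  exact ⟨σ, hσ.mem_decompositionSubgroup, cycloChar_of_isFrobeniusAt hℓ hA hn hσ⟩

end Fermat.Agent.CFT.Recip
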