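import Fermat.Agent.CFT.Global.GC3.Final
import Fermat.Agent.CFT.Recip.Chi
import Fermat.Agent.CFT.F.Cup

/-!
# CFT / Recip : a global class of `H²(G_S, μ_p)` which is locally trivial on `ℚ(ζ_{p²})` is a cyclic
class `(χ, a)`, `a ∈ ℚˣ`, `χ` the character of the first layer of the cyclotomic `ℤ_p`-extension.
-/

set_option autoImplicit false

namespace Fermat.Agent.CFT.Recip

open Fermat.Agent.CFT Fermat.Agent.CFT.Global ExtCitation

variable {p : ℕ} [Fact p.Prime] {S : Finset Nat.Primes}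

section Lev

variable {G : Type} [Group G]

theorem comap_id_eq (𝒰 : Levels G) : 𝒰.comap (MonoidHom.id G) = 𝒰 := by
  apply levels_ext
  ext W
  constructor
  · rintro ⟨U, hU, rfl⟩
    exact hU
  · intro hW
    exact ⟨W, hW, rfl⟩

end Lev

/-- elements of `VV p` fix the `p`-th roots of unity -/
theorem apply_zeta_of_mem_VV {ζ : Qb} (hζ : ζ ^ p = 1) {g : GQ} (hg : g ∈ VV p) : g ζ = ζ := by
  have h1 : ζ ^ (p ^ 2) = 1 := by rw [pow_two, pow_mul, hζ, one_pow]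
  have h2 := GAL.cycloChar_spec (p ^ 2) g h1
  have : Fact (1 < p ^ 2) := ⟨Nat.one_lt_pow two_ne_zero (Fact.out : p.Prime).one_lt⟩
  rw [show GAL.cycloChar (p ^ 2) g = 1 from hg, Units.val_one, ZMod.val_one, pow_one] at h2
  exact h2

theorem cycloChar_eq_one_of_mem_VV {g : GQ} (hg : g ∈ VV p) : cycloChar p g = 1 := by
  obtain ⟨ζ, hζ⟩ := GAL.exists_primitiveRoot_Zbar p
  have h1 : g (ζ : Qb) = (ζ : Qb) ^ 1 := by
    rw [pow_one]
    exact apply_zeta_of_mem_VV hζ.pow_eq_one hg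
  have h2 := GAL.cycloChar_eq_of_primitiveRoot p g hζ h1
  rw [cycloChar_eq_gal]
  exact Units.ext (by simpa using h2)

section Mu

variable {ζ : Qb} {z : VS S} {mu : ZMod p →+ VS S}

theorem mu_natCast_mul (mu : ZMod p →+ VS S) (n : ℕ) (v : ZMod p) :
    mu ((n : ZMod p) * v) = n • mu v := by
  rw [← nsmul_eq_mul, map_nsmul]

/-- `μ_p → ℚ_Sˣ` is `GQ`-equivariant -/
theorem mu_equivariant (hζ : IsPrimitiveRoot ζ p) (hz : toQb (inclS S z) = ζ)
    (hmu : ∀ i : ZMod p, mu i = i.val • z) (g : GQ) (v : ZMod p) :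
    mu (chiRep (cycloChar p) g v) = rhoS S g (mu v) := by
  have h1 : rhoS S g z = ((cycloChar p g : ZMod p)).val • z := by
    apply Subtype.ext
    apply toQb_injective
    change g (toQb (inclS S z)) = toQb (inclS S z) ^ ((cycloChar p g : ZMod p)).val
    rw [hz]
    exact GAL.cycloChar_spec p g hζ.pow_eq_one
  rw [chiRep_apply, ← ZMod.natCast_zmod_val (cycloChar p g : ZMod p), mu_natCast_mul, hmu v,
    map_nsmul, h1, smul_comm]

theorem mu_comp_mem_Z2' (hζ : IsPrimitiveRoot ζ p) (hz : toQb (inclS S z) = ζ)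
    (hmu : ∀ i : ZMod p, mu i = i.val • z) {𝒰 : Levels GQ} {x : GQ × GQ → ZMod p}
    (hx : x ∈ Z2 𝒰 (chiRep (cycloChar p))) : (fun g => mu (x g)) ∈ Z2 𝒰 (rhoS S) :=
  add_comp_mem_Z2 mu (mu_equivariant hζ hz hmu) hx

theorem p_nsmul_mu_comp {X : Type} (mu : ZMod p →+ VS S) (x : X → ZMod p) :
    p • (fun g => mu (x g)) = 0 := by
  funext g
  rw [Pi.smul_apply, ← map_nsmul, nsmul_eq_mul, ZMod.natCast_self, zero_mul, map_zero]
  rfl

end Mu

theorem chiRep_comp_eq_one {k : Type} [CommRing k] {G H : Type} [Group G] [Group H]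
    (χ : G →* kˣ) (r : H →* G) (h : ∀ g, χ (r g) = 1) :
    (chiRep χ).comp r = (1 : Representation k H k) := by
  ext g
  simp [h]

/-- **RC-GLOB** -/
theorem exists_cyc_global (hHNT : HNTStatement p S) (hpS : pPrime p ∈ S)
    {ζ : Qb} (hζ : IsPrimitiveRoot ζ p) {z : VS S} (hz : toQb (inclS S z) = ζ)
    {mu : ZMod p →+ VS S} (hmu : ∀ i : ZMod p, mu i = i.val • z)
    {χ : GQ →* Multiplicative (ZMod p)} (hχ : χ.ker = MM p) {σ : GQ}
    (hσ : χ σ = Multiplicative.ofAdd 1)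
    {x : GQ × GQ → ZMod p} (hx : x ∈ Z2 (levS S) (chiRep (cycloChar p)))
    (hloc : ∀ q ∈ S, ∀ A : ValuationSubring Qb, A.LiesOverPrime ((q : Nat.Primes) : ℕ) →
      ∀ (H : Type) [Group H] (j : H →* GQ), (∀ h, j h ∈ A.decompositionSubgroup ℚ) →
        (∀ h, j h ∈ VV p) →
        (fun g : H × H => inclS S (mu (x (j g.1, j g.2)))) ∈ B2 (levAll.comap j) (rhoQ.comp j)) :
    ∃ a : VS S, (∀ g, rhoS S g a = a) ∧ (fun g => mu (x g)) - cyc χ a ∈ B2 (levS S) (rhoS S) := by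
  obtain ⟨U₀, hU₀, hU₀V⟩ := exists_levS_le_VV (p := p) S hpS
  have hVK : VV p ≤ χ.ker := hχ ▸ VV_le_MM
  have hχ' : ∃ U ∈ (levS S).carrier, U ≤ χ.ker := ⟨U₀, hU₀, hU₀V.trans hVK⟩
  have hyZ := mu_comp_mem_Z2' hζ hz hmu hx
  set H : Subgroup ↥χ.ker := (VV p).subgroupOf χ.ker with hH
  set r₂ : ↥H →* GQ := χ.ker.subtype.comp H.subtype with hr₂
  have hr₂V : ∀ g, r₂ g ∈ VV p := fun g => g.2
  have hAr : Arith S ζ r₂ := by
    refine ⟨⟨U₀, hU₀, fun s hs => ⟨⟨⟨s, hVK (hU₀V hs)⟩, hU₀V hs⟩, rfl⟩⟩, fun g => ?_⟩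
    exact apply_zeta_of_mem_VV hζ.pow_eq_one (hr₂V g)
  have hx₂ : (fun g : ↥H × ↥H => x (r₂ g.1, r₂ g.2)) ∈
      Z2 ((levS S).comap r₂) (1 : Representation (ZMod p) ↥H (ZMod p)) := by
    have := comp_hom_mem_Z2 (𝒱 := (levS S).comap r₂) r₂ (Levels.comap_cont _ r₂) hx
    rw [chiRep_comp_eq_one _ _ (fun g => cycloChar_eq_one_of_mem_VV (hr₂V g))] at this
    exact this
  have hlocU : LocTrivU S r₂ (fun g => mu (x (r₂ g.1, r₂ g.2))) := by
    intro q hq A hA H' _ j hj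
    exact hloc q hq A hA H' (r₂.comp j) hj (fun h => hr₂V _)
  have hB₂ := hasse_S hHNT hζ hz hmu hAr hx₂ hlocU
  -- descend to `ker χ`
  have hy₁Z : (fun g => mu (x g)) ∘ Prod.map χ.ker.subtype χ.ker.subtype ∈
      Z2 ((levS S).sub χ.ker) (resRep (rhoS S) χ.ker) := res_mem_Z2 _ hyZ
  have hy₁B : (fun g => mu (x g)) ∘ Prod.map χ.ker.subtype χ.ker.subtype ∈
      B2 ((levS S).sub χ.ker) (resRep (rhoS S) χ.ker) := by
    have hHo : ∃ U ∈ ((levS S).sub χ.ker).carrier, U ≤ H :=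
      ⟨U₀.subgroupOf χ.ker, ⟨U₀, hU₀, rfl⟩, fun s hs => hU₀V hs⟩
    refine mem_B2_of_coprime_index (H := H) hHo
      ((isSmooth_smoothRep _ _).sub _) hy₁Z ?_ (n := p) ?_ ?_
    · have e : ((levS S).sub χ.ker).sub H = (levS S).comap r₂ :=
        sub_comap_eq (levS S) χ.ker.subtype H
      rw [e]
      exact hB₂
    · have h0 : p • ((fun g => mu (x g)) ∘ Prod.map χ.ker.subtype χ.ker.subtype) = 0 :=
        p_nsmul_mu_comp mu _
      rw [h0]
      exact Submodule.zero_mem _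
    · rw [hH, hχ]
      exact coprime_index_VV
  have h90 : Z1 ((levS S).sub χ.ker) (resRep (rhoS S) χ.ker) ≤ B1 (resRep (rhoS S) χ.ker) :=
    h90_S S χ.ker.subtype ⟨U₀, hU₀, by rw [Subgroup.range_subtype]; exact hU₀V.trans hVK⟩
  exact exists_cyc_of_res_mem_B2 hσ hχ' (isSmooth_smoothRep _ _) h90 hyZ hy₁B

end Fermat.Agent.CFT.Recip
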