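import Fermat.Agent.CFT.Coh.Cyclic

/-! # CFT / Recip, RC-Z : Lemma Z.

If `m · carry_χ = dψ` with `ψ : D → ℤ` (trivial action) invariant under a subgroup of finite index, then
`n ∣ m · ⌊χ g⌋` for all `g` : `θ = m ⌊χ⌋ - n ψ` is a homomorphism `D → ℤ` which vanishes on a subgroup of
finite index, hence `θ = 0`. -/

set_option autoImplicit false

namespace Fermat.Agent.CFT.Recip

open Fermat.Agent.CFT

theorem lemmaZ_eq {D : Type} [Group D] {n : ℕ} [NeZero n] (χ : D →* Multiplicative (ZMod n)) (m : ℤ)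
    (ψ : D → ℤ) (U : Subgroup D) [U.FiniteIndex] (hψ : ∀ g, ∀ s ∈ U, ψ (g * s) = ψ g)
    (h : ∀ g h, m * (carry χ g h : ℤ) = ψ h - ψ (g * h) + ψ g) (g : D) :
    m * (chiVal χ g : ℤ) = n * ψ g := by
  have hadd : ∀ a b : D, m * (chiVal χ (a * b) : ℤ) - n * ψ (a * b)
      = (m * (chiVal χ a : ℤ) - n * ψ a) + (m * (chiVal χ b : ℤ) - n * ψ b) := by
    intro a b
    have e1 : ((chiVal χ a : ℤ)) + chiVal χ b = chiVal χ (a * b) + n * carry χ a b := by
      exact_mod_cast chiVal_add χ a b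
    have e2 := h a b
    linear_combination (-m) * e1 - (n : ℤ) * e2
  let θ : D →* Multiplicative ℤ :=
    { toFun := fun a => Multiplicative.ofAdd (m * (chiVal χ a : ℤ) - n * ψ a)
      map_one' := by
        have := hadd 1 1
        rw [mul_one] at this
        have h0 : m * (chiVal χ (1 : D) : ℤ) - n * ψ 1 = 0 := by linarith
        rw [h0]; rfl
      map_mul' := fun a b => by rw [hadd a b]; rfl }
  have hθ : ∀ a, θ a = Multiplicative.ofAdd (m * (chiVal χ a : ℤ) - n * ψ a) := fun _ => rfl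
  have hker : ∀ s ∈ U ⊓ χ.ker, θ s = 1 := by
    intro s hs
    have h1 : θ 1 = 1 := map_one θ
    rw [hθ] at h1 ⊢
    have e1 : ψ s = ψ 1 := by
      have := hψ 1 s hs.1
      rwa [one_mul] at this
    rw [e1, chiVal_of_mem_ker χ hs.2]
    rw [chiVal_of_mem_ker χ (one_mem _)] at h1
    exact h1
  obtain ⟨k, hk0, -, hk⟩ := Subgroup.exists_pow_mem_of_index_ne_zero
    (H := U ⊓ χ.ker) Subgroup.FiniteIndex.index_ne_zero g
  have h2 := hker _ hk
  rw [map_pow, hθ, ← ofAdd_nsmul] at h2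
  have h3 : k • (m * (chiVal χ g : ℤ) - n * ψ g) = 0 := h2
  rw [nsmul_eq_mul] at h3
  have hk' : (k : ℤ) ≠ 0 := by exact_mod_cast hk0.ne'
  have := (mul_eq_zero.1 h3).resolve_left hk'
  linarith

/-- **Lemma Z** -/
theorem lemmaZ {D : Type} [Group D] {n : ℕ} [NeZero n] (χ : D →* Multiplicative (ZMod n)) (m : ℤ)
    (ψ : D → ℤ) (U : Subgroup D) [U.FiniteIndex] (hψ : ∀ g, ∀ s ∈ U, ψ (g * s) = ψ g)
    (h : ∀ g h, m * (carry χ g h : ℤ) = ψ h - ψ (g * h) + ψ g) (g : D) :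
    (n : ℤ) ∣ m * (chiVal χ g : ℤ) :=
  ⟨ψ g, lemmaZ_eq χ m ψ U hψ h g⟩

/-- for prime `n = p`: either `p ∣ m` or `χ` is trivial. -/
theorem lemmaZ_prime {D : Type} [Group D] {p : ℕ} [Fact p.Prime]
    (χ : D →* Multiplicative (ZMod p)) (m : ℤ)
    (ψ : D → ℤ) (U : Subgroup D) [U.FiniteIndex] (hψ : ∀ g, ∀ s ∈ U, ψ (g * s) = ψ g)
    (h : ∀ g h, m * (carry χ g h : ℤ) = ψ h - ψ (g * h) + ψ g) {g : D} (hg : χ g ≠ 1) :
    (p : ℤ) ∣ m := by
  have hp : p.Prime := Fact.out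
  have h1 := lemmaZ χ m ψ U hψ h g
  rcases (Nat.prime_iff_prime_int.1 hp).dvd_or_dvd h1 with h2 | h2
  · exact h2
  · exfalso
    have h3 : p ∣ chiVal χ g := by exact_mod_cast h2
    have h4 : chiVal χ g = 0 := Nat.eq_zero_of_dvd_of_lt h3 (chiVal_lt χ g)
    apply hg
    rw [chiVal, ZMod.val_eq_zero] at h4
    exact h4

end Fermat.Agent.CFT.Recip
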