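import Fermat.Agent.CFT.Recip.Glob
import Fermat.Agent.CFT.Br.Cyc
import Fermat.Agent.CFT.Br.Adapter

/-!
# CFT / Recip : localisation of the identity `μ ∘ x ~ (χ, a)`
-/

set_option autoImplicit false

namespace Fermat.Agent.CFT.Recip

open Fermat.Agent.CFT Fermat.Agent.CFT.Global ExtCitation Finset

variable {p : ℕ} [Fact p.Prime] {S : Finset Nat.Primes}

theorem toQb_zsmul (k : ℤ) (u : Additive Qbˣ) : toQb (k • u) = toQb u ^ k := by
  change (((Additive.toMul u) ^ k : Qbˣ) : Qb) = _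
  rw [Units.val_zpow_eq_zpow_val]
  rfl

theorem nsmul_cyc {G : Type} [Group G] {V : Type} [AddCommGroup V] {n : ℕ} [NeZero n]
    (χ : G →* Multiplicative (ZMod n)) (m : ℕ) (a : V) : m • cyc χ a = cyc χ (m • a) := by
  funext ⟨g, h⟩
  rw [Pi.smul_apply, cyc_apply, cyc_apply, smul_comm]

/-- pull-back of `y ~ (χ, a)` along `j : H →* GQ`, with values in `ℚbarˣ` and all levels -/
theorem loc_sub_cyc_mem_B2 {χ : GQ →* Multiplicative (ZMod p)} {y : GQ × GQ → VS S} {a : VS S}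
    (hya : y - cyc χ a ∈ B2 (levS S) (rhoS S)) {H : Type} [Group H] (j : H →* GQ) :
    (fun g : H × H => inclS S (y (j g.1, j g.2))) - cyc (χ.comp j) (inclS S a) ∈
      B2 (levAll.comap j) (rhoQ.comp j) := by
  have h1 : (y - cyc χ a) ∘ Prod.map j j ∈ B2 (levAll.comap j) ((rhoS S).comp j) := by
    refine comp_hom_mem_B2 j ?_ hya
    intro U hU
    exact ⟨_, ⟨U, levS_le_levAll S hU, rfl⟩, le_rfl⟩
  have h2 : inclS S ∘ ((y - cyc χ a) ∘ Prod.map j j) ∈ B2 (levAll.comap j) (rhoQ.comp j) :=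
    comp_mem_B2 (inclS S) (fun _ _ => rfl) h1
  have e : (fun g : H × H => inclS S (y (j g.1, j g.2))) - cyc (χ.comp j) (inclS S a)
      = inclS S ∘ ((y - cyc χ a) ∘ Prod.map j j) := by
    funext ⟨g, h⟩
    simp only [Pi.sub_apply, Function.comp_apply, Prod.map_apply, map_sub, cyc_apply, map_nsmul]
    rfl
  rw [e]
  exact h2

/-- a locally trivial class `(χ, a)` : `a` is a local norm -/
theorem exists_local_norm {χ : GQ →* Multiplicative (ZMod p)} {y : GQ × GQ → VS S} {a : VS S}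
    (ha : ∀ g, rhoS S g a = a) (hya : y - cyc χ a ∈ B2 (levS S) (rhoS S)) (D : Subgroup GQ)
    (hyD : (fun g : ↥D × ↥D => inclS S (y (D.subtype g.1, D.subtype g.2))) ∈
      B2 (levAll.comap D.subtype) (rhoQ.comp D.subtype))
    {τ : GQ} (hτD : τ ∈ D) (hτ : χ τ = Multiplicative.ofAdd 1) :
    ∃ b : Qb, b ≠ 0 ∧ (∀ g ∈ D, g ∈ χ.ker → g b = b) ∧
      toQb (inclS S a) = ∏ i ∈ range p, (τ ^ i) b := by
  set χD : ↥D →* Multiplicative (ZMod p) := χ.comp D.subtype with hχD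
  have hcyc : cyc χD (inclS S a) ∈ B2 (levAll.comap D.subtype) (rhoQ.comp D.subtype) := by
    have := Submodule.sub_mem _ hyD (loc_sub_cyc_mem_B2 hya D.subtype)
    rwa [sub_sub_cancel] at this
  have h90 : Z1 ((levAll.comap D.subtype).sub χD.ker) (resRep (rhoQ.comp D.subtype) χD.ker)
      ≤ B1 (resRep (rhoQ.comp D.subtype) χD.ker) := by
    rw [sub_comap_eq]
    exact h90_all (D.subtype.comp χD.ker.subtype)
  obtain ⟨b, hb, hab⟩ := exists_norm_of_cyc_mem_B2 (σ := (⟨τ, hτD⟩ : ↥D)) hτ h90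
    (a := inclS S a) (fun g => congrArg (inclS S) (ha g)) hcyc
  refine ⟨toQb b, toQb_ne_zero b, fun g hgD hg => ?_, ?_⟩
  · exact congrArg toQb (hb ⟨g, hgD⟩ hg)
  · rw [hab]
    exact toQb_pnorm D.subtype ⟨τ, hτD⟩ p b

/-- `(χ, a)` is locally trivial if `a ^ m = N(b) ^ k * y ^ p`, `m` prime to `p` -/
theorem cyc_loc_mem_B2 {χ : GQ →* Multiplicative (ZMod p)}
    (hχ : ∃ U ∈ levAll.carrier, U ≤ χ.ker) (D : Subgroup GQ) {α : Additive Qbˣ}
    (hα : ∀ g ∈ D, g (toQb α) = toQb α) {τ : GQ} (hτD : τ ∈ D)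
    (hτ : χ τ = Multiplicative.ofAdd 1) {b y : Qb} (hb0 : b ≠ 0) (hy0 : y ≠ 0)
    (hb : ∀ g ∈ D, g ∈ χ.ker → g b = b) (hy : ∀ g ∈ D, g y = y) {m : ℕ} (hm : Nat.Coprime m p)
    {k : ℤ} (h : toQb α ^ m = (∏ i ∈ range p, (τ ^ i) b) ^ k * y ^ p) :
    cyc (χ.comp D.subtype) α ∈ B2 (levAll.comap D.subtype) (rhoQ.comp D.subtype) := by
  set χD : ↥D →* Multiplicative (ZMod p) := χ.comp D.subtype with hχD
  set ρ := rhoQ.comp D.subtype with hρ
  have hχD' : ∃ U ∈ (levAll.comap D.subtype).carrier, U ≤ χD.ker := by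
    obtain ⟨U, hU, hle⟩ := hχ
    exact ⟨_, ⟨U, hU, rfl⟩, fun s hs => hle hs⟩
  have hαfix : ∀ g, ρ g α = α := fun g => toQb_injective (hα g g.2)
  have hyfix : ∀ g, ρ g (ofQb y hy0) = ofQb y hy0 := fun g => toQb_injective (hy g g.2)
  have hbfix : ∀ s ∈ χD.ker, ρ s (ofQb b hb0) = ofQb b hb0 :=
    fun s hs => toQb_injective (hb s s.2 hs)
  have e : m • α = k • pnorm ρ (⟨τ, hτD⟩ : ↥D) p (ofQb b hb0) + p • ofQb y hy0 := by
    apply toQb_injective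
    rw [toQb_nsmul, h, toQb_add, toQb_nsmul, toQb_ofQb]
    congr 1
    have e1 : toQb (pnorm ρ (⟨τ, hτD⟩ : ↥D) p (ofQb b hb0)) = ∏ i ∈ range p, (τ ^ i) b :=
      toQb_pnorm D.subtype ⟨τ, hτD⟩ p (ofQb b hb0)
    rw [← e1, toQb_zsmul]
  have h1 : cyc χD (pnorm ρ (⟨τ, hτD⟩ : ↥D) p (ofQb b hb0)) ∈ B2 (levAll.comap D.subtype) ρ :=
    cyc_mem_B2_of_norm (σ := (⟨τ, hτD⟩ : ↥D)) hτ hχD' hbfix
  have h2 : cyc χD (p • ofQb y hy0) ∈ B2 (levAll.comap D.subtype) ρ := by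
    rw [← Br.Adapter.cyc_eq]
    exact Br.nsmul_cyc_mem_B2 hχD' hyfix
  have h3 : cyc χD (p • α) ∈ B2 (levAll.comap D.subtype) ρ := by
    rw [← Br.Adapter.cyc_eq]
    exact Br.nsmul_cyc_mem_B2 hχD' hαfix
  have h4 : m • cyc χD α ∈ B2 (levAll.comap D.subtype) ρ := by
    have e2 : m • cyc χD α = k • cyc χD (pnorm ρ (⟨τ, hτD⟩ : ↥D) p (ofQb b hb0))
        + cyc χD (p • ofQb y hy0) := by
      rw [← cyc_smul (k := ℤ), ← cyc_add, ← e, nsmul_cyc]
    rw [e2]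
    exact Submodule.add_mem _ (Submodule.smul_mem _ k h1) h2
  have h5 : p • cyc χD α ∈ B2 (levAll.comap D.subtype) ρ := by
    rw [nsmul_cyc]
    exact h3
  exact mem_of_coprime_nsmul_mem (B2 (levAll.comap D.subtype) ρ).toAddSubgroup hm h4 h5

end Fermat.Agent.CFT.Recip
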