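import Fermat.Agent.CFT.Recip.LocS
import Fermat.Agent.CFT.Recip.LocCyc

/-! # CFT / Recip, RC-LOCP : the cyclic class `(χ, a)` is trivial at `p` if
`a^(p-1) = p^k y^p` with `y ∈ ℚ_p`. -/

set_option autoImplicit false

namespace Fermat.Agent.CFT.Recip

open Fermat.Agent.CFT Fermat.Agent.CFT.Global Fermat.Agent.Bridge ExtCitation Finset

variable {p : ℕ} [Fact p.Prime]

theorem toQb_pnorm_rhoQ (σ : GQ) (m : ℕ) (b : Additive Qbˣ) :
    toQb (pnorm rhoQ σ m b) = ∏ i ∈ range m, (σ ^ i) (toQb b) := by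
  rw [pnorm, toQb_sum]
  rfl

theorem cyc_nsmul' {G : Type} [Group G] {V : Type} [AddCommGroup V] {n : ℕ} [NeZero n]
    (χ : G →* Multiplicative (ZMod n)) (m : ℕ) (a : V) : cyc χ (m • a) = m • cyc χ a := by
  funext ⟨g, h⟩
  rw [Pi.smul_apply, cyc_apply, cyc_apply, smul_comm]

theorem cyc_zsmul' {G : Type} [Group G] {V : Type} [AddCommGroup V] {n : ℕ} [NeZero n]
    (χ : G →* Multiplicative (ZMod n)) (m : ℤ) (a : V) : cyc χ (m • a) = m • cyc χ a := by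
  funext ⟨g, h⟩
  rw [Pi.smul_apply, cyc_apply, cyc_apply, smul_comm]

theorem exists_levAll_le_ker {χ : GQ →* Multiplicative (ZMod p)} (hχ : χ.ker = MM p) :
    ∃ U ∈ levAll.carrier, U ≤ χ.ker := by
  obtain ⟨U, hU, hle⟩ := exists_levS_le_VV (p := p) {pPrime p} (Finset.mem_singleton_self _)
  exact ⟨U, levS_le_levAll _ hU, hle.trans (hχ ▸ VV_le_MM)⟩

theorem ofAdd_one_ne_one : (Multiplicative.ofAdd (1 : ZMod p)) ≠ 1 := by
  intro h
  have h1 : (1 : ZMod p) = 0 := Multiplicative.ofAdd.injective h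
  exact one_ne_zero h1

/-- `(χ, p)` is globally trivial -/
theorem cyc_prime_mem_B2 {χ : GQ →* Multiplicative (ZMod p)} (hχ : χ.ker = MM p)
    (hp0 : ((p : ℕ) : Qb) ≠ 0) : cyc χ (ofQb ((p : ℕ) : Qb) hp0) ∈ B2 levAll rhoQ := by
  have hp : p.Prime := Fact.out
  obtain ⟨σ₀, hσ₀⟩ := exists_notMem_MM (p := p)
  have hσ₀' : χ σ₀ ≠ 1 := fun h => hσ₀ (hχ ▸ MonoidHom.mem_ker.2 h)
  obtain ⟨m, hm⟩ := exists_pow_chi_eq_one hσ₀'
  have hσM : σ₀ ^ m ∉ MM p := by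
    rw [← hχ, MonoidHom.mem_ker, hm]
    exact ofAdd_one_ne_one
  obtain ⟨b, hb, hpb⟩ := normP (p := p) (σ₀ ^ m) hσM
  have hb0 : b ≠ 0 := by
    rintro rfl
    apply hp0
    rw [hpb]
    exact prod_eq_zero (mem_range.2 hp.pos) (map_zero _)
  have hP : ofQb ((p : ℕ) : Qb) hp0 = pnorm rhoQ (σ₀ ^ m) p (ofQb b hb0) := by
    apply toQb_injective
    rw [toQb_pnorm_rhoQ, toQb_ofQb, toQb_ofQb, hpb]
  rw [hP]
  refine cyc_mem_B2_of_norm hm (exists_levAll_le_ker hχ) fun s hs => ?_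
  apply toQb_injective
  rw [toQb_rhoQ, toQb_ofQb]
  exact hb s (hχ ▸ hs)

/-- **RC-LOCP** -/
theorem cyc_mem_B2_at_p {χ : GQ →* Multiplicative (ZMod p)} (hχ : χ.ker = MM p)
    {A : ValuationSubring Qb} (hA : A.LiesOverPrime p) {a : Additive Qbˣ}
    (ha : ∀ g, rhoQ g a = a) {k : ℤ} {y : Qb} (hy0 : y ≠ 0)
    (hy : ∀ g ∈ A.decompositionSubgroup ℚ, g y = y)
    (hay : toQb a ^ (p - 1) = ((p : ℕ) : Qb) ^ k * y ^ p) :
    cyc (χ.comp (A.decompositionSubgroup ℚ).subtype) a ∈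
      B2 (levAll.comap (A.decompositionSubgroup ℚ).subtype)
        (rhoQ.comp (A.decompositionSubgroup ℚ).subtype) := by
  have hp : p.Prime := Fact.out
  have hp0 : ((p : ℕ) : Qb) ≠ 0 := by exact_mod_cast hp.ne_zero
  set D : Subgroup GQ := A.decompositionSubgroup ℚ with hD
  set χD : ↥D →* Multiplicative (ZMod p) := χ.comp D.subtype with hχD
  obtain ⟨τ₀, hτ₀D, hτ₀⟩ := locSurj (p := p) A hA
  have hτ₀' : χ τ₀ ≠ 1 := fun h => hτ₀ (hχ ▸ MonoidHom.mem_ker.2 h)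
  obtain ⟨m, hm⟩ := exists_pow_chi_eq_one hτ₀'
  set σD : ↥D := ⟨τ₀ ^ m, pow_mem hτ₀D m⟩ with hσD
  have hσ1 : χD σD = Multiplicative.ofAdd 1 := hm
  have hχD' : ∃ U ∈ (levAll.comap D.subtype).carrier, U ≤ χD.ker := by
    obtain ⟨U, hU, hle⟩ := exists_levAll_le_ker hχ
    exact ⟨_, ⟨U, hU, rfl⟩, fun s hs => hle hs⟩
  -- `p`-th multiples of fixed elements give trivial classes
  have aux : ∀ v : Additive Qbˣ, (∀ g : ↥D, rhoQ.comp D.subtype g v = v) →
      cyc χD (p • v) ∈ B2 (levAll.comap D.subtype) (rhoQ.comp D.subtype) := by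
    intro v hv
    have e : p • v = pnorm (rhoQ.comp D.subtype) σD p v := by
      rw [pnorm, sum_congr rfl (fun i _ => hv (σD ^ i)), sum_const, card_range]
    rw [e]
    exact cyc_mem_B2_of_norm hσ1 hχD' (fun s _ => hv s)
  have h1 : cyc χD (ofQb ((p : ℕ) : Qb) hp0) ∈
      B2 (levAll.comap D.subtype) (rhoQ.comp D.subtype) :=
    comp_hom_mem_B2 D.subtype (Levels.comap_cont _ _) (cyc_prime_mem_B2 hχ hp0)
  have h2 := aux (ofQb y hy0) (fun g => by
    apply toQb_injective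
    change (g : GQ) (toQb (ofQb y hy0)) = _
    rw [toQb_ofQb]
    exact hy g g.2)
  have h3 := aux a (fun g => ha g)
  have e : (p - 1) • a = k • ofQb ((p : ℕ) : Qb) hp0 + p • ofQb y hy0 := by
    apply toQb_injective
    rw [toQb_nsmul, toQb_add, toQb_zsmul, toQb_nsmul, toQb_ofQb, toQb_ofQb, hay]
  have h4 : (p - 1) • cyc χD a ∈ B2 (levAll.comap D.subtype) (rhoQ.comp D.subtype) := by
    rw [← cyc_nsmul', e, cyc_add, cyc_zsmul']
    exact Submodule.add_mem _ (Submodule.smul_mem _ k h1) h2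
  have h5 : p • cyc χD a ∈ B2 (levAll.comap D.subtype) (rhoQ.comp D.subtype) := by
    rw [← cyc_nsmul']
    exact h3
  have hcop : Nat.Coprime (p - 1) p := by
    have h := Nat.coprime_self_sub_right (n := p) (m := 1) hp.one_lt.le
    rw [Nat.coprime_comm]
    exact h.2 (Nat.coprime_one_right p)
  exact mem_of_coprime_nsmul_mem (B2 (levAll.comap D.subtype) (rhoQ.comp D.subtype)).toAddSubgroup
    hcop h4 h5

end Fermat.Agent.CFT.Recip
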