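import Fermat.Agent.CFT.Recip.Glob
import Fermat.Agent.CFT.Recip.Fin

/-! # CFT / Recip, RC-LOCS : a cyclic class `(χ, a)` which is trivial at `A ∣ l ≠ p` has
`p ∣ v_l(a)` unless `l` splits in `𝔹₁`. -/

set_option autoImplicit false

namespace Fermat.Agent.CFT.Recip

open Fermat.Agent.CFT Fermat.Agent.CFT.Global Fermat.Agent.Bridge ExtCitation Finset

variable {p : ℕ} [Fact p.Prime]

/-- `ℚ(ζ_{p²})` is unramified outside `p` -/
theorem isUnramifiedOutside_adjoin_zeta {z : Qb} (hz : z ^ (p ^ 2) = 1) :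
    (IntermediateField.adjoin ℚ {z}).IsUnramifiedOutside {pPrime p} := by
  have hp : p.Prime := Fact.out
  refine ⟨IntermediateField.adjoin.finiteDimensional (Algebra.IsIntegral.isIntegral (R := ℚ) z),
    fun q hq A hA g hg => ?_⟩
  have hqp : (q : ℕ) ≠ p := by
    intro h
    apply hq
    rw [Finset.mem_singleton]
    exact Subtype.ext h
  have h1 : g z = z := apply_eq_of_mem_inertia q.2 hA
    (Nat.Coprime.pow_right 2 ((Nat.coprime_primes q.2 hp).2 hqp)) hg hz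
  rw [IntermediateField.mem_fixingSubgroup_iff]
  exact fun x hx => apply_eq_of_mem_adjoin_simple h1 hx

variable {l : ℕ} {A : ValuationSubring Qb}

/-- the value group of the decomposition field of `𝔹₁` at `A ∣ l ≠ p` is `v(l)^ℤ` -/
theorem exists_zpow_of_fixed_MM (hl : l.Prime) (hlp : l ≠ p) (hA : A.LiesOverPrime l) {β : Qb}
    (hβ0 : β ≠ 0) (hβ : ∀ g ∈ A.decompositionSubgroup ℚ, g ∈ MM p → g β = β) :
    ∃ n : ℤ, A.valuation β = A.valuation (l : Qb) ^ n := by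
  obtain ⟨z, hz⟩ := GAL.exists_primitiveRoot_Zbar (p ^ 2)
  have hF := isUnramifiedOutside_adjoin_zeta (p := p) hz.pow_eq_one
  set F : IntermediateField ℚ Qb := IntermediateField.adjoin ℚ {(z : Qb)} with hFdef
  have hfin : FiniteDimensional ℚ F := hF.1
  obtain ⟨c, hc0, h1⟩ := exists_valuation_eq_of_fixed (φ := emb F) hl hA hβ0 (fun σ hσ => by
    refine hβ σ hσ.1 (VV_le_MM ?_)
    have h2 : σ (z : Qb) = (z : Qb) ^ 1 := by
      rw [pow_one]
      exact hσ.2 ⟨(z : Qb), IntermediateField.mem_adjoin_simple_self ℚ _⟩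
    have h3 := GAL.cycloChar_eq_of_primitiveRoot (p ^ 2) σ hz h2
    rw [mem_VV]
    exact Units.ext (by simpa using h3))
  let q : Nat.Primes := ⟨l, hl⟩
  have hq : q ∉ ({pPrime p} : Finset Nat.Primes) := by
    intro h
    exact hlp (congrArg Subtype.val (Finset.mem_singleton.1 h))
  obtain ⟨n, hn⟩ := exists_zpow_of_isUnramifiedOutside hF (x := (c : Qb)) c.2
    (fun h => hc0 (Subtype.ext h)) hq (A := A) hA
  exact ⟨n, h1.trans hn⟩

/-- plain form: a norm from the decomposition field of `𝔹₁` has valuation divisible by `p` -/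
theorem valuation_of_norm (hl : l.Prime) (hlp : l ≠ p) (hA : A.LiesOverPrime l) {a β : Qb}
    (ha0 : a ≠ 0) (hβ : ∀ g ∈ A.decompositionSubgroup ℚ, g ∈ MM p → g β = β) {τ : GQ}
    (hτ : τ ∈ A.decompositionSubgroup ℚ) (ha : a = ∏ i ∈ range p, (τ ^ i) β) :
    ∃ n : ℤ, A.valuation a = A.valuation (l : Qb) ^ ((p : ℤ) * n) := by
  have hp : p.Prime := Fact.out
  have hβ0 : β ≠ 0 := by
    rintro rfl
    apply ha0
    rw [ha]
    exact prod_eq_zero (mem_range.2 hp.pos) (map_zero _)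
  obtain ⟨n, hn⟩ := exists_zpow_of_fixed_MM hl hlp hA hβ0 hβ
  refine ⟨n, ?_⟩
  rw [ha, map_prod]
  have : ∀ i ∈ range p, A.valuation ((τ ^ i) β) = A.valuation β := fun i _ =>
    valuation_apply_of_mem_decomposition (pow_mem hτ i) β
  rw [prod_congr rfl this, prod_const, card_range, hn, ← zpow_natCast, ← zpow_mul, mul_comm]

/-- helper67's exact shape -/
theorem val_of_local_norm (hl : l.Prime) (hlp : l ≠ p) (hA : A.LiesOverPrime l) {τ : GQ}
    (hτ : τ ∈ A.decompositionSubgroup ℚ) {a b : Qb} (hb0 : b ≠ 0)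
    (hb : ∀ g ∈ A.decompositionSubgroup ℚ, g ∈ MM p → g b = b)
    (hab : a = ∏ i ∈ Finset.range p, (τ ^ i) b) :
    ∃ n : ℤ, A.valuation a = A.valuation ((l : ℕ) : Qb) ^ ((p : ℤ) * n) := by
  refine valuation_of_norm hl hlp hA ?_ hb hτ hab
  rw [hab, Finset.prod_ne_zero_iff]
  exact fun i _ => (map_ne_zero _).2 hb0

/-- **RC-LOCS** -/
theorem val_of_cyc_mem_B2 {χ : GQ →* Multiplicative (ZMod p)} (hχ : χ.ker = MM p)
    (hl : l.Prime) (hlp : l ≠ p) (hA : A.LiesOverPrime l) {a : Additive Qbˣ}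
    (ha : ∀ g, rhoQ g a = a)
    (hcyc : cyc (χ.comp (A.decompositionSubgroup ℚ).subtype) a ∈
      B2 (levAll.comap (A.decompositionSubgroup ℚ).subtype)
        (rhoQ.comp (A.decompositionSubgroup ℚ).subtype))
    (hτ : ∃ τ ∈ A.decompositionSubgroup ℚ, τ ∉ MM p) :
    ∃ n : ℤ, A.valuation (toQb a) = A.valuation (l : Qb) ^ ((p : ℤ) * n) := by
  obtain ⟨τ₀, hτ₀D, hτ₀⟩ := hτ
  set D : Subgroup GQ := A.decompositionSubgroup ℚ with hD
  set χD : ↥D →* Multiplicative (ZMod p) := χ.comp D.subtype with hχD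
  have hτ₀' : χ τ₀ ≠ 1 := fun h => hτ₀ (hχ ▸ MonoidHom.mem_ker.2 h)
  obtain ⟨m, hm⟩ := exists_pow_chi_eq_one hτ₀'
  set σD : ↥D := ⟨τ₀ ^ m, pow_mem hτ₀D m⟩ with hσD
  have hσ1 : χD σD = Multiplicative.ofAdd 1 := hm
  have h90 : Z1 ((levAll.comap D.subtype).sub χD.ker) (resRep (rhoQ.comp D.subtype) χD.ker)
      ≤ B1 (resRep (rhoQ.comp D.subtype) χD.ker) := by
    rw [sub_comap_eq]
    exact h90_all (D.subtype.comp χD.ker.subtype)
  obtain ⟨b, hb, hab⟩ := exists_norm_of_cyc_mem_B2 (σ := σD) hσ1 h90 (a := a)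
    (fun g => ha g) hcyc
  refine valuation_of_norm hl hlp hA (toQb_ne_zero a) (β := toQb b) ?_ (τ := τ₀ ^ m)
    (pow_mem hτ₀D m) ?_
  · intro g hgD hgM
    have hk : (⟨g, hgD⟩ : ↥D) ∈ χD.ker := by
      rw [MonoidHom.mem_ker]
      change χ g = 1
      rw [← MonoidHom.mem_ker, hχ]
      exact hgM
    exact congrArg toQb (hb _ hk)
  · rw [hab]
    exact toQb_pnorm D.subtype σD p b

end Fermat.Agent.CFT.Recip
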