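import Fermat.Agent.CFT.K.Datum
import Fermat.Agent.Common.PlaceBridgeLocal
import Fermat.Agent.Common.PlaceBridgeKummer

/-! # CFT / Recip, RC-VAL : valuations of rational numbers at places of `ℚbar`;
elements fixed by a decomposition group have valuation in `v(ℓ)^ℤ`. -/

set_option autoImplicit false

namespace Fermat.Agent.CFT.Recip

open Fermat.Agent.CFT Fermat.Agent.S54 Fermat.Agent.Bridge

variable {ℓ : ℕ} {A : ValuationSubring Qb}

theorem valuation_intCast_le_one (z : ℤ) : A.valuation (z : Qb) ≤ 1 :=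
  (A.valuation_le_one_iff _).mpr (intCast_mem A z)

theorem valuation_natCast_le_one (n : ℕ) : A.valuation (n : Qb) ≤ 1 := by
  have := valuation_intCast_le_one (A := A) (n : ℤ)
  rwa [Int.cast_natCast] at this

theorem valuation_prime_lt_one (hA : A.LiesOverPrime ℓ) : A.valuation (ℓ : Qb) < 1 :=
  A.mem_nonunits_iff.mp hA

theorem valuation_prime_ne_zero (hℓ : ℓ.Prime) : A.valuation (ℓ : Qb) ≠ 0 :=
  (A.valuation.ne_zero_iff).mpr (by exact_mod_cast hℓ.ne_zero)

/-- integers prime to `ℓ` are units at `A ∣ ℓ` -/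
theorem valuation_natCast_eq_one (hℓ : ℓ.Prime) (hA : A.LiesOverPrime ℓ) {m : ℕ} (hm : ¬ ℓ ∣ m) :
    A.valuation (m : Qb) = 1 := by
  have hcop : Nat.Coprime ℓ m := (Nat.Prime.coprime_iff_not_dvd hℓ).2 hm
  obtain ⟨a, b, hab⟩ := Nat.isCoprime_iff_coprime.mpr hcop
  have h1 : (a : Qb) * ℓ + b * m = 1 := by exact_mod_cast congrArg (Int.cast : ℤ → Qb) hab
  refine le_antisymm (valuation_natCast_le_one m) ?_
  by_contra hlt
  rw [not_le] at hlt
  have h2 : A.valuation ((a : Qb) * ℓ + b * m) < 1 := by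
    refine lt_of_le_of_lt (A.valuation.map_add _ _) (max_lt ?_ ?_)
    · rw [map_mul]
      calc _ ≤ 1 * A.valuation (ℓ : Qb) := mul_le_mul_left (valuation_intCast_le_one a) _
        _ < 1 := by rw [one_mul]; exact valuation_prime_lt_one hA
    · rw [map_mul]
      calc _ ≤ 1 * A.valuation (m : Qb) := mul_le_mul_left (valuation_intCast_le_one b) _
        _ < 1 := by rw [one_mul]; exact hlt
  rw [h1, map_one] at h2
  exact lt_irrefl _ h2

theorem valuation_natCast_eq_pow_padicValNat (hℓ : ℓ.Prime) (hA : A.LiesOverPrime ℓ) {n : ℕ}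
    (hn : n ≠ 0) : A.valuation (n : Qb) = A.valuation (ℓ : Qb) ^ padicValNat ℓ n := by
  have h1 : ℓ ^ n.factorization ℓ * (n / ℓ ^ n.factorization ℓ) = n :=
    Nat.ordProj_mul_ordCompl_eq_self n ℓ
  have h2 : ¬ ℓ ∣ n / ℓ ^ n.factorization ℓ := Nat.not_dvd_ordCompl hℓ hn
  conv_lhs => rw [← h1]
  rw [Nat.cast_mul, map_mul, valuation_natCast_eq_one hℓ hA h2, mul_one, Nat.cast_pow, map_pow,
    Nat.factorization_def n hℓ]

/-- **RC-VAL** -/
theorem valuation_ratCast (hℓ : ℓ.Prime) (hA : A.LiesOverPrime ℓ) {r : ℚ} (hr : r ≠ 0) :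
    A.valuation (algebraMap ℚ Qb r) = A.valuation (ℓ : Qb) ^ padicValRat ℓ r := by
  have hnum0 : r.num.natAbs ≠ 0 := by
    rw [Int.natAbs_ne_zero]; exact Rat.num_ne_zero.2 hr
  have h0 := valuation_prime_ne_zero (A := A) hℓ
  have e1 : algebraMap ℚ Qb r = (r.num : Qb) / (r.den : Qb) := by
    conv_lhs => rw [← Rat.num_div_den r]
    rw [map_div₀, map_intCast, map_natCast]
  have e2 : A.valuation (r.num : Qb) = A.valuation ((r.num.natAbs : ℕ) : Qb) := by
    rcases Int.natAbs_eq r.num with h | h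
    · conv_lhs => rw [h]
      rw [Int.cast_natCast]
    · conv_lhs => rw [h]
      rw [Int.cast_neg, Valuation.map_neg, Int.cast_natCast]
  have e3 : padicValRat ℓ r = (padicValNat ℓ r.num.natAbs : ℤ) - padicValNat ℓ r.den := rfl
  rw [e1, map_div₀, e2, valuation_natCast_eq_pow_padicValNat hℓ hA hnum0,
    valuation_natCast_eq_pow_padicValNat hℓ hA r.den_ne_zero, e3, zpow_sub₀ h0, zpow_natCast,
    zpow_natCast]

/-- the value group of `ℚbar ^ D_A` is `v(ℓ)^ℤ` -/
theorem exists_zpow_of_fixed_decomposition (hℓ : ℓ.Prime) (hA : A.LiesOverPrime ℓ) {x : Qb}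
    (hx0 : x ≠ 0) (hx : ∀ σ ∈ A.decompositionSubgroup ℚ, σ x = x) :
    ∃ n : ℤ, A.valuation x = A.valuation (ℓ : Qb) ^ n := by
  obtain ⟨c, hc0, h1⟩ := exists_valuation_eq_of_fixed (φ := algebraMap ℚ Qb) hℓ hA hx0
    (fun σ hσ => hx σ hσ.1)
  exact ⟨_, h1.trans (valuation_ratCast hℓ hA hc0)⟩

end Fermat.Agent.CFT.Recip
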