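import Fermat.Agent.CFT.Recip.NormP
import Fermat.Agent.CFT.Recip.Val
import Fermat.Agent.CFT.Recip.Frob2

/-! # CFT / Recip, RC-LOCSURJ and RC-INERT : `p` is totally ramified in `𝔹₁`, which is unramified
outside `p`. -/

set_option autoImplicit false

namespace Fermat.Agent.CFT.Recip

open Fermat.Agent.CFT Fermat.Agent.Bridge Finset

variable {p : ℕ} [Fact p.Prime]

theorem exists_fq_ne_one : ∃ s : (ZMod (p ^ 2))ˣ, fq p s ≠ 1 := by
  have hp : p.Prime := Fact.out
  have hdvd : p ∣ Nat.card (ZMod (p ^ 2))ˣ := by rw [card_units_sq]; exact dvd_mul_right _ _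
  obtain ⟨s, hs⟩ := exists_prime_orderOf_dvd_card' p hdvd
  refine ⟨s, fun h => ?_⟩
  rw [fq_eq_one_iff] at h
  have h1 := orderOf_dvd_of_pow_eq_one h
  rw [hs] at h1
  have := Nat.le_of_dvd (by have := hp.two_le; omega) h1
  have := hp.two_le
  omega

theorem exists_notMem_MM : ∃ σ : GQ, σ ∉ MM p := by
  obtain ⟨s, hs⟩ := exists_fq_ne_one (p := p)
  obtain ⟨σ, rfl⟩ := c2_surjective (p := p) s
  exact ⟨σ, fun h => hs (mem_MM_iff_fq.1 h)⟩

variable {A : ValuationSubring Qb}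

theorem valuation_one_sub_pow_le {n : ℕ} (hn : n ≠ 0) {μ : Qb} (hμ : μ ^ n = 1) (k : ℕ) :
    A.valuation (1 - μ ^ k) ≤ A.valuation (1 - μ) := by
  have h1 : 1 - μ ^ k = (1 - μ) * ∑ i ∈ range k, μ ^ i := by
    have := mul_geom_sum μ k
    linear_combination this
  rw [h1, map_mul]
  exact mul_le_of_le_one_right zero_le (valuation_geom_sum_le_one hn hμ k)

theorem valuation_FF {z : Qb} (hz : z ^ (p ^ 2) = 1) (u : (ZMod (p ^ 2))ˣ) :
    A.valuation (FF z u) = A.valuation (1 - z) := by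
  have hp : p.Prime := Fact.out
  have hn : p ^ 2 ≠ 0 := NeZero.ne _
  refine le_antisymm (valuation_one_sub_pow_le hn hz _) ?_
  have h1 : z = (z ^ (u : ZMod (p ^ 2)).val) ^ ((u⁻¹ : (ZMod (p ^ 2))ˣ) : ZMod (p ^ 2)).val := by
    rw [← pow_val_mul hz, mul_inv_cancel, Units.val_one, ZMod.val_one'', pow_one]
    intro h
    have := hp.two_le
    nlinarith
  have h2 : (z ^ (u : ZMod (p ^ 2)).val) ^ (p ^ 2) = 1 := by
    rw [← pow_mul, mul_comm, pow_mul, hz, one_pow]
  conv_lhs => rw [h1]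
  exact valuation_one_sub_pow_le hn h2 _

theorem valuation_bb_pow {z : Qb} (hz : IsPrimitiveRoot z (p ^ 2)) :
    A.valuation (bb (p := p) z) ^ p = A.valuation (p : Qb) := by
  classical
  obtain ⟨s, hs⟩ := exists_fq_ne_one (p := p)
  rw [← prod_FF hz, map_prod, prod_univ_eq_prod_range (fq p) hs, bb, map_prod]
  simp only [valuation_FF hz.pow_eq_one, Finset.prod_const, card_range]

/-- **RC-LOCSURJ** -/
theorem locSurj : LocSurj p := by
  intro A hA
  have hp : p.Prime := Fact.out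
  by_contra hcon
  push Not at hcon
  obtain ⟨z, hz⟩ := GAL.exists_primitiveRoot_Zbar (p ^ 2)
  have h1 := valuation_bb_pow (A := A) hz
  have hb0 : bb (p := p) (z : Qb) ≠ 0 := by
    intro h0
    rw [h0, map_zero, zero_pow hp.ne_zero] at h1
    exact valuation_prime_ne_zero hp h1.symm
  obtain ⟨n, hn⟩ := exists_zpow_of_fixed_decomposition hp hA hb0
    (fun σ hσ => apply_bb_of_mem hz.pow_eq_one (hcon σ hσ))
  rw [hn, ← zpow_natCast, ← zpow_mul] at h1
  have h2 := zpow_valuation_natCast_injective hp hA (a₁ := n * (p : ℤ)) (a₂ := 1)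
    (by simpa using h1)
  have h3 : (p : ℤ) ∣ 1 := ⟨n, by rw [← h2]; ring⟩
  have h4 : p ∣ 1 := by exact_mod_cast h3
  exact hp.one_lt.ne' (Nat.dvd_one.1 h4)

/-- **RC-INERT** (second proof; the canonical name `inertLe` lives in `Recip/Chi.lean`) -/
theorem inertLe' : InertLe p := by
  intro l hl hlp A hA σ hσ
  have hp : p.Prime := Fact.out
  rw [mem_VV]
  exact cycloChar_of_mem_inertia hl hA
    (Nat.Coprime.pow_right 2 ((Nat.coprime_primes hl hp).2 hlp)) hσ

end Fermat.Agent.CFT.Recip
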