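import Fermat.Agent.CFT.Recip.LocV
import Fermat.Agent.CFT.Recip.LocCyc
import Fermat.Agent.CFT.Recip.LocS
import Fermat.Agent.CFT.Br.Kummer
import Fermat.Agent.CFT.Global.GC3.Main

/-!
# CFT / Recip : reciprocity over `ℚ` (= TG8 = (I2))

A class of `H²(G_S, μ_p)` which is locally trivial at all `q ∈ S`, `q ≠ p`, is locally trivial at `p`.
-/

set_option autoImplicit false

namespace Fermat.Agent.CFT.Recip

open Fermat.Agent.CFT Fermat.Agent.CFT.Global ExtCitation Fermat.Agent.Bridge Finset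

variable {p : ℕ} [Fact p.Prime] {S : Finset Nat.Primes}

theorem chiRep_comp {k : Type} [CommRing k] {G H : Type} [Group G] [Group H]
    (χ : G →* kˣ) (r : H →* G) : (chiRep χ).comp r = chiRep (χ.comp r) := by
  ext g
  simp

/-- Kummer: `H²(D, μ_p) → H²(D, ℚbarˣ)` is injective, for every subgroup `D` of `GQ` -/
theorem mem_B2_of_incl_mu {ζ : Qb} {z : VS S} {mu : ZMod p →+ VS S} (hζ : IsPrimitiveRoot ζ p)
    (hz : toQb (inclS S z) = ζ) (hmu : ∀ i : ZMod p, mu i = i.val • z) (D : Subgroup GQ)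
    {c : ↥D × ↥D → ZMod p}
    (hc : c ∈ Z2 (levAll.comap D.subtype) ((chiRep (cycloChar p)).comp D.subtype))
    (hB : (fun g => inclS S (mu (c g))) ∈ B2 (levAll.comap D.subtype) (rhoQ.comp D.subtype)) :
    c ∈ B2 (levAll.comap D.subtype) ((chiRep (cycloChar p)).comp D.subtype) := by
  have hp : p.Prime := Fact.out
  rw [chiRep_comp] at hc ⊢
  have hgal : Br.IsGalAct Qb (levAll.comap D.subtype) :=
    LS.isGalAct_of_hom D.subtype (fun _ _ => rfl) _ (fun _ => Iff.rfl)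
  have hroot : ∀ x : Qbˣ, ∃ y, y ^ p = x := by
    intro x
    obtain ⟨y, hy⟩ := IsAlgClosed.exists_pow_nat_eq (x : Qb) hp.pos
    have hy0 : y ≠ 0 := by
      rintro rfl
      rw [zero_pow hp.ne_zero] at hy
      exact x.ne_zero hy.symm
    exact ⟨Units.mk0 y hy0, Units.ext hy⟩
  set ζu : Qbˣ := Additive.toMul (inclS S z) with hζu
  have hζu' : (ζu : Qb) = ζ := hz
  have hprim : IsPrimitiveRoot ζu p := by
    rw [← IsPrimitiveRoot.coe_units_iff, hζu']
    exact hζ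
  refine Br.kummer_H2_inj hgal hroot hprim (fun g => ?_) hc ?_
  · apply Units.ext
    change (g : GQ) (ζu : Qb) = ((ζu ^ _ : Qbˣ) : Qb)
    rw [Units.val_pow_eq_pow_val, hζu']
    exact GAL.cycloChar_spec p (g : GQ) hζ.pow_eq_one
  · have e : Br.muEmb ζu ∘ c = fun g => inclS S (mu (c g)) := by
      funext g
      rw [Function.comp_apply, hmu, map_nsmul]
      rfl
    rw [e]
    exact hB

/-- elements fixed by `GQ` are rational -/
theorem exists_rat_of_fixed {x : Qb} (hx : ∀ g : GQ, g x = x) : ∃ r : ℚ, algebraMap ℚ Qb r = x :=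
  exists_of_fixed (φ := algebraMap ℚ Qb) (fun σ _ => hx σ)

/-- **RC = TG8 = (I2)** : reciprocity over `ℚ`. -/
theorem recipQ_main (hp2 : p ≠ 2) (S : Finset Nat.Primes) (hpS : pPrime p ∈ S)
    (x : GQ × GQ → ZMod p) (hx : x ∈ Z2 (levS S) (chiRep (cycloChar p)))
    (hloc : ∀ q ∈ S, q ≠ pPrime p →
      x ∘ Prod.map (decomp q).subtype (decomp q).subtype ∈
        B2 (levAll.comap (decomp q).subtype) ((chiRep (cycloChar p)).comp (decomp q).subtype)) :
    x ∘ Prod.map (decomp (pPrime p)).subtype (decomp (pPrime p)).subtype ∈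
      B2 (levAll.comap (decomp (pPrime p)).subtype)
        ((chiRep (cycloChar p)).comp (decomp (pPrime p)).subtype) := by
  have hp : p.Prime := Fact.out
  obtain ⟨ζ0, hζ⟩ := GAL.exists_primitiveRoot_Zbar p
  set ζ : Qb := (ζ0 : Qb) with hζdef
  have hζne : ζ ≠ 0 := hζ.ne_zero hp.ne_zero
  obtain ⟨U₀, hU₀, hU₀V⟩ := exists_levS_le_VV (p := p) S hpS
  let z : VS S := ⟨ofQb ζ hζne, mem_VS_iff.2 ⟨U₀, hU₀, fun s hs =>
    apply_zeta_of_mem_VV hζ.pow_eq_one (hU₀V hs)⟩⟩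
  have hz : toQb (inclS S z) = ζ := rfl
  have hmu := muOf_apply z (p_nsmul_z hζ hz)
  set mu : ZMod p →+ VS S := muOf z (p_nsmul_z hζ hz) with hmudef
  obtain ⟨χ, hχ, σ, hσ⟩ := exists_chi hp2 (c2_surjective (p := p))
  have hHNT : HNTStatement p S := hnt_Qb hp2 S ⟨pPrime p, hpS, rfl⟩ (LS.localNonNorm p)
  obtain ⟨a, ha, hya⟩ := exists_cyc_global hHNT hpS hζ hz hmu hχ hσ hx
    (locV locSurj hζ hz hmu hχ hx hloc)
  have hxA := Z2_levAll_of_levS hx
  obtain ⟨r, hr⟩ := exists_rat_of_fixed (x := toQb (inclS S a))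
    (fun g => congrArg (fun v => toQb (inclS S v)) (ha g))
  have hr0 : r ≠ 0 := by
    rintro rfl
    rw [map_zero] at hr
    exact toQb_ne_zero _ hr.symm
  have haQ : ∀ g, rhoQ g (inclS S a) = inclS S a := fun g => congrArg (inclS S) (ha g)
  -- the conditions outside `p`
  have hcond : ∀ l : ℕ, l.Prime → l ≠ p → ∀ A : ValuationSubring Qb, A.LiesOverPrime l →
      (∃ τ ∈ A.decompositionSubgroup ℚ, τ ∉ MM p) →
        ∃ n : ℤ, A.valuation (algebraMap ℚ Qb r) = A.valuation ((l : ℕ) : Qb) ^ ((p : ℤ) * n) := by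
    intro l hl hlp A hA hτ
    rw [hr]
    by_cases hlS : (⟨l, hl⟩ : Nat.Primes) ∈ S
    · have hq : (⟨l, hl⟩ : Nat.Primes) ≠ pPrime p := fun h => hlp (congrArg Subtype.val h)
      have h1 : (fun g : ↥(A.decompositionSubgroup ℚ) × ↥(A.decompositionSubgroup ℚ) =>
          inclS S (mu (x ((A.decompositionSubgroup ℚ).subtype g.1,
            (A.decompositionSubgroup ℚ).subtype g.2)))) ∈
          B2 (levAll.comap (A.decompositionSubgroup ℚ).subtype)
            (rhoQ.comp (A.decompositionSubgroup ℚ).subtype) :=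
        incl_mu_comp_mem_B2 hζ hz hmu _
          (loc_of_conj hxA (hloc _ hlS hq) (q := ⟨l, hl⟩) hA _ (fun h => h.2))
      have h2 := Submodule.sub_mem _ h1
        (loc_sub_cyc_mem_B2 hya (A.decompositionSubgroup ℚ).subtype)
      rw [sub_sub_cancel] at h2
      exact val_of_cyc_mem_B2 hχ hl hlp hA haQ h2 hτ
    · obtain ⟨τ, hτD, hτM⟩ := hτ
      have hτ' : χ τ ≠ 1 := fun h => hτM (hχ ▸ MonoidHom.mem_ker.2 h)
      refine exists_val_eq_zpow_mul (MonoidHom.id GQ) χ mu x a ?_ (q := ⟨l, hl⟩) hlS hA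
        (τ := τ) hτD hτ'
      rw [comap_id_eq]
      exact hya
  -- the place `p`
  have hAp : (primeLocalPlace (pPrime p)).LiesOverPrime p :=
    LS.liesOverPrime_primeLocalPlace (pPrime p)
  obtain ⟨k, y, hy0, hyfix, hky⟩ := arithFin hp2 r hr0 hcond _ hAp
  obtain ⟨τ₀, hτ₀D, hτ₀M⟩ := locSurj (p := p) _ hAp
  have hτ₀' : χ τ₀ ≠ 1 := fun h => hτ₀M (hχ ▸ MonoidHom.mem_ker.2 h)
  obtain ⟨m, hm⟩ := exists_pow_chi_eq_one hτ₀'
  have hτM : τ₀ ^ m ∉ MM p := by
    intro h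
    rw [← hχ, MonoidHom.mem_ker, hm] at h
    have : (1 : ZMod p) = 0 := Multiplicative.ofAdd.injective h
    exact one_ne_zero this
  obtain ⟨b, hbfix, hb⟩ := normP (p := p) (τ₀ ^ m) hτM
  have hb0 : b ≠ 0 := by
    rintro rfl
    have : ((p : ℕ) : Qb) = 0 := by
      rw [hb]
      exact prod_eq_zero (mem_range.2 hp.pos) (map_zero _)
    exact hp.ne_zero (by exact_mod_cast this)
  have hcop : Nat.Coprime (p - 1) p := by
    rw [Nat.coprime_comm, hp.coprime_iff_not_dvd]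
    intro h
    have h1 := Nat.le_of_dvd (Nat.sub_pos_of_lt hp.one_lt) h
    have h2 := hp.one_lt
    omega
  have hcyc := cyc_loc_mem_B2 (χ := χ) ⟨U₀, levS_le_levAll S hU₀, hχ ▸ hU₀V.trans VV_le_MM⟩
    (decomp (pPrime p)) (α := inclS S a) (fun g _ => congrArg toQb (haQ g))
    (pow_mem hτ₀D m) hm hb0 hy0 (fun g _ hg => hbfix g (hχ ▸ hg)) hyfix (m := p - 1)
    hcop (k := k) (by rw [← hb, ← hr]; exact hky)
  have hfin := Submodule.add_mem _ (loc_sub_cyc_mem_B2 hya (decomp (pPrime p)).subtype) hcyc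
  rw [sub_add_cancel] at hfin
  exact mem_B2_of_incl_mu hζ hz hmu (decomp (pPrime p))
    (comp_hom_mem_Z2 (𝒱 := levAll.comap (decomp (pPrime p)).subtype) (decomp (pPrime p)).subtype
      (Levels.comap_cont _ _) hxA) hfin

end Fermat.Agent.CFT.Recip
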