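import Fermat.Agent.CFT.K.Datum
import Fermat.Agent.GAL.CycloChar

/-! # CFT / Recip, RC-SURJ : the cyclotomic character `GAL.cycloChar n` is surjective. -/

set_option autoImplicit false

namespace Fermat.Agent.CFT.Recip

open Fermat.Agent.CFT Polynomial

/-- any two primitive `n`-th roots of unity are conjugate under `GQ` -/
theorem exists_apply_eq_of_isPrimitiveRoot {n : ℕ} [NeZero n] {ζ ζ' : Qb}
    (hζ : IsPrimitiveRoot ζ n) (hζ' : IsPrimitiveRoot ζ' n) : ∃ g : GQ, g ζ = ζ' := by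
  have hn : 0 < n := Nat.pos_of_ne_zero (NeZero.ne n)
  have h : IsConjRoot ℚ ζ' ζ := by
    rw [isConjRoot_def, ← cyclotomic_eq_minpoly_rat hζ hn, ← cyclotomic_eq_minpoly_rat hζ' hn]
  have := isGalois_Qb
  exact h.exists_algEquiv

/-- **RC-SURJ** the cyclotomic character is surjective -/
theorem cycloChar_surjective (n : ℕ) [NeZero n] :
    Function.Surjective (Fermat.Agent.GAL.cycloChar n) := by
  intro u
  obtain ⟨ζ, hζ⟩ := Fermat.Agent.GAL.exists_primitiveRoot_Zbar n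
  have hcop : Nat.Coprime (u : ZMod n).val n := ZMod.val_coe_unit_coprime u
  obtain ⟨g, hg⟩ := exists_apply_eq_of_isPrimitiveRoot hζ (hζ.pow_of_coprime _ hcop)
  refine ⟨g, Units.ext ?_⟩
  rw [Fermat.Agent.GAL.cycloChar_eq_of_primitiveRoot n g hζ hg, ZMod.natCast_zmod_val]

theorem exists_cycloChar_eq_one_add (p : ℕ) [Fact p.Prime] :
    ∃ g : GQ, (Fermat.Agent.GAL.cycloChar (p ^ 2) g : ZMod (p ^ 2)) = 1 + p := by
  have hp : p.Prime := Fact.out
  have hu : IsUnit ((1 + p : ℕ) : ZMod (p ^ 2)) := by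
    rw [ZMod.isUnit_iff_coprime]
    apply Nat.Coprime.pow_right
    rw [Nat.coprime_comm, Nat.coprime_add_self_right]
    exact Nat.coprime_one_right p
  obtain ⟨u, hu⟩ := hu
  obtain ⟨g, hg⟩ := cycloChar_surjective (p ^ 2) u
  refine ⟨g, ?_⟩
  rw [hg, hu]
  push_cast
  ring

end Fermat.Agent.CFT.Recip
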