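import Fermat.Agent.CFT.Recip.Spec
import Fermat.Agent.CFT.Recip.Surj

/-! # CFT / Recip, RC-NORMP : `p` is a norm from the first layer of the cyclotomic `ℤ_p`-extension.

`U = (ℤ/p²)ˣ`, `fq : U → ℤ/p` a character with kernel `H = {u | u^(p-1) = 1}`;
`bb z = ∏_{u ∈ H} (1 - z^u)`; `∏_{u ∈ U} (1 - z^u) = Φ_{p²}(1) = p`. -/

set_option autoImplicit false

namespace Fermat.Agent.CFT.Recip

open Fermat.Agent.CFT Polynomial Finset

variable (p : ℕ) [Fact p.Prime]

/-! ### the character `fq` -/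

/-- the principal units of `ℤ/p²` -/
noncomputable def U1 : Subgroup (ZMod (p ^ 2))ˣ :=
  (ZMod.unitsMap (dvd_pow_self p two_ne_zero) : (ZMod (p ^ 2))ˣ →* (ZMod p)ˣ).ker

theorem card_units_sq : Nat.card (ZMod (p ^ 2))ˣ = p * (p - 1) := by
  have hp : p.Prime := Fact.out
  rw [Nat.card_eq_fintype_card, ZMod.card_units_eq_totient, Nat.totient_prime_pow hp two_pos]
  simp

theorem card_U1 : Nat.card (U1 p) = p := by
  have hp : p.Prime := Fact.out
  have h1 := (U1 p).card_mul_index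
  have h2 : (U1 p).index = p - 1 := by
    rw [U1, Subgroup.index_ker, MonoidHom.range_eq_top.2 (ZMod.unitsMap_surjective _),
      Nat.card_congr Subgroup.topEquiv.toEquiv, Nat.card_eq_fintype_card, ZMod.card_units_eq_totient,
      Nat.totient_prime hp]
  rw [h2, card_units_sq] at h1
  exact Nat.eq_of_mul_eq_mul_right (by have := hp.two_le; omega) h1

theorem pow_mem_U1 (u : (ZMod (p ^ 2))ˣ) : u ^ (p - 1) ∈ U1 p := by
  rw [U1, MonoidHom.mem_ker, map_pow]
  exact ZMod.units_pow_card_sub_one_eq_one p _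

theorem card_mult_zmod : Nat.card (Multiplicative (ZMod p)) = p := by
  rw [Nat.card_eq_fintype_card, Fintype.card_multiplicative, ZMod.card]

/-- a character of `(ℤ/p²)ˣ` with kernel `{u | u^(p-1) = 1}` ("Fermat quotient") -/
noncomputable def fq : (ZMod (p ^ 2))ˣ →* Multiplicative (ZMod p) :=
  (mulEquivOfPrimeCardEq (card_U1 p) (card_mult_zmod p)).toMonoidHom.comp
    ((powMonoidHom (p - 1) : (ZMod (p ^ 2))ˣ →* (ZMod (p ^ 2))ˣ).codRestrict (U1 p) (pow_mem_U1 p))

variable {p}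

theorem fq_eq_one_iff {u : (ZMod (p ^ 2))ˣ} : fq p u = 1 ↔ u ^ (p - 1) = 1 := by
  change (mulEquivOfPrimeCardEq (card_U1 p) (card_mult_zmod p))
    (⟨u ^ (p - 1), pow_mem_U1 p u⟩ : U1 p) = 1 ↔ _
  rw [EmbeddingLike.map_eq_one_iff]
  exact Subtype.ext_iff

theorem mem_MM_iff_fq {g : GQ} : g ∈ MM p ↔ fq p (c2 p g) = 1 := by
  rw [fq_eq_one_iff, mem_MM]

/-! ### regrouping a product over a group along a character of order `p` -/

theorem prod_univ_eq_prod_range {U : Type*} [CommGroup U] [Fintype U] [DecidableEq U]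
    {M : Type*} [CommMonoid M]
    (t : U →* Multiplicative (ZMod p)) {s : U} (hs : t s ≠ 1) (F : U → M) :
    ∏ u, F u = ∏ i ∈ range p, ∏ u ∈ univ.filter (fun u => t u = 1), F (s ^ i * u) := by
  classical
  have hp : p.Prime := Fact.out
  have hord : orderOf (t s) = p := by
    refine orderOf_eq_prime ?_ hs
    have := pow_card_eq_one' (G := Multiplicative (ZMod p)) (x := t s)
    rwa [card_mult_zmod] at this
  have hinj : Set.InjOn (fun i : ℕ => (t s) ^ i) (range p : Set ℕ) := by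
    intro i hi j hj hij
    have := pow_injOn_Iio_orderOf (x := t s)
    rw [hord] at this
    exact this (by simpa using hi) (by simpa using hj) hij
  have himg : (range p).image (fun i : ℕ => (t s) ^ i) = univ := by
    apply Finset.eq_univ_of_card
    rw [Finset.card_image_of_injOn hinj, card_range, Fintype.card_multiplicative, ZMod.card]
  rw [← Finset.prod_fiberwise univ t F, ← himg, Finset.prod_image hinj]
  refine Finset.prod_congr rfl fun i _ => ?_
  symm
  refine Finset.prod_equiv (Equiv.mulLeft (s ^ i)) (fun u => ?_) (fun u _ => rfl)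
  simp only [mem_filter, mem_univ, true_and, Equiv.coe_mulLeft, map_mul, map_pow]
  constructor
  · intro h; rw [h, mul_one]
  · intro h; exact mul_eq_left.1 h

/-! ### the cyclotomic units -/

/-- `1 - z^u` -/
noncomputable def FF (z : Qb) (u : (ZMod (p ^ 2))ˣ) : Qb := 1 - z ^ (u : ZMod (p ^ 2)).val

omit [Fact p.Prime] in
theorem pow_val_mul {z : Qb} (hz : z ^ (p ^ 2) = 1) (v u : (ZMod (p ^ 2))ˣ) :
    z ^ ((v * u : (ZMod (p ^ 2))ˣ) : ZMod (p ^ 2)).val
      = (z ^ (v : ZMod (p ^ 2)).val) ^ (u : ZMod (p ^ 2)).val := by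
  rw [Units.val_mul, ZMod.val_mul, ← pow_mul, ← pow_eq_pow_mod _ hz]

theorem apply_FF {z : Qb} (hz : z ^ (p ^ 2) = 1) (g : GQ) (u : (ZMod (p ^ 2))ˣ) :
    g (FF z u) = FF z (c2 p g * u) := by
  rw [FF, FF, map_sub, map_one, map_pow, GAL.cycloChar_spec (p ^ 2) g hz, pow_val_mul hz]

theorem prod_FF {z : Qb} (hz : IsPrimitiveRoot z (p ^ 2)) :
    ∏ u : (ZMod (p ^ 2))ˣ, FF z u = (p : Qb) := by
  classical
  have hn : 0 < p ^ 2 := Nat.pos_of_ne_zero (NeZero.ne _)
  have hinj : Set.InjOn (fun u : (ZMod (p ^ 2))ˣ => z ^ (u : ZMod (p ^ 2)).val)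
      (univ : Finset (ZMod (p ^ 2))ˣ) := by
    intro u _ v _ huv
    have := hz.pow_inj (ZMod.val_lt _) (ZMod.val_lt _) huv
    exact Units.ext (ZMod.val_injective _ this)
  have himg : Finset.image (fun u : (ZMod (p ^ 2))ˣ => z ^ (u : ZMod (p ^ 2)).val) univ
      = primitiveRoots (p ^ 2) Qb := by
    apply Finset.eq_of_subset_of_card_le
    · intro x hx
      obtain ⟨u, -, rfl⟩ := Finset.mem_image.1 hx
      rw [mem_primitiveRoots hn]
      exact hz.pow_of_coprime _ (ZMod.val_coe_unit_coprime u)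
    · rw [Finset.card_image_of_injOn hinj, hz.card_primitiveRoots, Finset.card_univ,
        ZMod.card_units_eq_totient]
  have h1 : eval 1 (cyclotomic (p ^ 2) Qb) = (p : Qb) := eval_one_cyclotomic_prime_pow 1
  rw [← h1, cyclotomic_eq_prod_X_sub_primitiveRoots hz, ← himg,
    Finset.prod_image hinj, eval_prod]
  refine Finset.prod_congr rfl fun u _ => ?_
  rw [FF, eval_sub, eval_X, eval_C]

open Classical in
/-- `N_{ℚ(ζ_{p²})/𝔹₁}(1 - z)` -/
noncomputable def bb (z : Qb) : Qb :=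
  ∏ u ∈ univ.filter (fun u : (ZMod (p ^ 2))ˣ => fq p u = 1), FF z u

theorem apply_bb {z : Qb} (hz : z ^ (p ^ 2) = 1) (g : GQ) :
    g (bb (p := p) z)
      = ∏ u ∈ univ.filter (fun u : (ZMod (p ^ 2))ˣ => fq p u = 1), FF z (c2 p g * u) := by
  classical
  rw [bb, map_prod]
  exact Finset.prod_congr (by congr) fun u _ => apply_FF hz g u

theorem apply_bb_of_mem {z : Qb} (hz : z ^ (p ^ 2) = 1) {g : GQ} (hg : g ∈ MM p) :
    g (bb (p := p) z) = bb (p := p) z := by
  classical
  rw [apply_bb hz, bb]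
  refine Finset.prod_equiv (Equiv.mulLeft (c2 p g)) (fun u => ?_) (fun u _ => rfl)
  simp only [mem_filter, mem_univ, true_and, Equiv.coe_mulLeft, map_mul, mem_MM_iff_fq.1 hg,
    one_mul]

theorem prod_pow_apply_bb {z : Qb} (hz : IsPrimitiveRoot z (p ^ 2)) {σ : GQ} (hσ : σ ∉ MM p) :
    ∏ i ∈ range p, (σ ^ i) (bb (p := p) z) = (p : Qb) := by
  classical
  rw [← prod_FF hz, prod_univ_eq_prod_range (fq p) (s := c2 p σ) (fun h => hσ (mem_MM_iff_fq.2 h))]
  refine Finset.prod_congr rfl fun i _ => ?_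
  rw [apply_bb hz.pow_eq_one, map_pow]

/-- **RC-NORMP** -/
theorem normP : NormP p := by
  intro σ hσ
  obtain ⟨z, hz⟩ := GAL.exists_primitiveRoot_Zbar (p ^ 2)
  exact ⟨bb (p := p) z, fun g hg => apply_bb_of_mem hz.pow_eq_one hg, (prod_pow_apply_bb hz hσ).symm⟩

theorem c2_surjective : Function.Surjective (c2 p) := cycloChar_surjective (p ^ 2)

end Fermat.Agent.CFT.Recip
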