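import Fermat.Agent.CFT.K.Datum
import Fermat.Agent.GAL.CycloChar

/-!
# CFT / Recip (RC = TG8) : common definitions for reciprocity over `ℚ`

`c2 p` : the cyclotomic character mod `p²`; `VV p = Gal(ℚbar/ℚ(ζ_{p²}))`;
`MM p = Gal(ℚbar/𝔹₁)`, `𝔹₁` the first layer of the cyclotomic `ℤ_p`-extension of `ℚ`
(`MM p = {g | c2(g)^(p-1) = 1}`, of index `p` in `GQ`, `[MM p : VV p] = p - 1`).

`ArithFin p` : the interface between the arithmetic half (helper36) and the cohomological half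
(helper67).
-/

set_option autoImplicit false

namespace Fermat.Agent.CFT.Recip

open Fermat.Agent.CFT

variable (p : ℕ) [Fact p.Prime]

instance neZero_sq : NeZero (p ^ 2) := ⟨pow_ne_zero 2 (Fact.out : p.Prime).ne_zero⟩

/-- the cyclotomic character mod `p²` -/
noncomputable abbrev c2 : GQ →* (ZMod (p ^ 2))ˣ := GAL.cycloChar (p ^ 2)

/-- `Gal(ℚbar/ℚ(ζ_{p²}))` -/
noncomputable def VV : Subgroup GQ := (c2 p).ker

/-- `Gal(ℚbar/𝔹₁)` -/
noncomputable def MM : Subgroup GQ :=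
  ((powMonoidHom (p - 1) : (ZMod (p ^ 2))ˣ →* (ZMod (p ^ 2))ˣ).comp (c2 p)).ker

variable {p}

theorem mem_VV {g : GQ} : g ∈ VV p ↔ c2 p g = 1 := Iff.rfl

theorem mem_MM {g : GQ} : g ∈ MM p ↔ c2 p g ^ (p - 1) = 1 := Iff.rfl

theorem VV_le_MM : VV p ≤ MM p := fun g hg => by
  rw [mem_MM, mem_VV.1 hg, one_pow]

instance : (VV p).Normal := by unfold VV; infer_instance

instance : (MM p).Normal := by unfold MM; infer_instance

variable (p)

/-- **RC-FIN** (the arithmetic half): a rational number whose valuation at `l ≠ p` is divisible by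
`p` whenever `l` does not split in `𝔹₁` is, up to a power of `p` and up to a prime-to-`p` power, a
`p`-th power in `ℚ_p`. -/
def ArithFin : Prop :=
  ∀ a : ℚ, a ≠ 0 →
    (∀ l : ℕ, l.Prime → l ≠ p → ∀ A : ValuationSubring Qb, A.LiesOverPrime l →
      (∃ τ ∈ A.decompositionSubgroup ℚ, τ ∉ MM p) →
        ∃ n : ℤ, A.valuation (algebraMap ℚ Qb a) = A.valuation ((l : ℕ) : Qb) ^ ((p : ℤ) * n)) →
    ∀ A : ValuationSubring Qb, A.LiesOverPrime p →
      ∃ (k : ℤ) (y : Qb), y ≠ 0 ∧ (∀ g ∈ A.decompositionSubgroup ℚ, g y = y) ∧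
        algebraMap ℚ Qb a ^ (p - 1) = ((p : ℕ) : Qb) ^ k * y ^ p

/-- **RC-NORMP**: `p` is a norm from `𝔹₁`. -/
def NormP : Prop :=
  ∀ σ : GQ, σ ∉ MM p → ∃ b : Qb, (∀ g ∈ MM p, g b = b) ∧
    ((p : ℕ) : Qb) = ∏ i ∈ Finset.range p, (σ ^ i) b

/-- **RC-LOCSURJ**: `p` does not split in `𝔹₁` (it is totally ramified). -/
def LocSurj : Prop :=
  ∀ A : ValuationSubring Qb, A.LiesOverPrime p → ∃ τ ∈ A.decompositionSubgroup ℚ, τ ∉ MM p

/-- **RC-INERT**: `𝔹₁` is unramified outside `p`. -/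
def InertLe : Prop :=
  ∀ l : ℕ, l.Prime → l ≠ p → ∀ A : ValuationSubring Qb, A.LiesOverPrime l →
    A.inertiaSubgroupIn ℚ ≤ VV p

end Fermat.Agent.CFT.Recip
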